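import Fermat.Agent.S17.FND.Defs
import Fermat.Agent.S17.FND.RR68.CharZero
import Fermat.Agent.S24.A564.KaehlerRankOne

/-!
# S17 / FND leaf A — structure of a function field of one variable (helper68)

All 19 frozen statements of leaf A of `Fermat/Agent/S17/FND/Skel.lean` (v0), verbatim.
Sources: landed S24 library (`A564/PlaceBasic`, `SumOrd`, `KaehlerRankOne`), the Riemann–Roch
library `Fermat/Agent/S17/FND/RR68/*` (helper68), and the S27 leaf T0 of helper5774 (copied into
the namespace `A68`).
-/

set_option autoImplicit false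

noncomputable section

namespace Fermat.Agent.S17.FND

namespace A68

open KaehlerDifferential IntermediateField TensorProduct AlgebraicCurve

variable {K F : Type*} [Field K] [Field F] [Algebra K F]

section basis

open scoped IntermediateField.algebraAdjoinAdjoin

/-- The evaluation map `K[ι] → F` at an algebraically independent family over which `F` is
separable algebraic is formally étale. (helper5774, S27 T0) -/
theorem formallyEtale_aeval {ι : Type*} {v : ι → F} (hb : AlgebraicIndependent K v)
    [Algebra.IsSeparable (IntermediateField.adjoin K (Set.range v)) F] :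
    ((MvPolynomial.aeval v : MvPolynomial ι K →ₐ[K] F) : MvPolynomial ι K →+* F).FormallyEtale := by
  have h1 : (hb.aevalEquiv : MvPolynomial ι K →+* Algebra.adjoin K (Set.range v)).FormallyEtale := by
    unfold RingHom.FormallyEtale
    let _ : Algebra (MvPolynomial ι K) (Algebra.adjoin K (Set.range v)) :=
      (hb.aevalEquiv : MvPolynomial ι K →+* Algebra.adjoin K (Set.range v)).toAlgebra
    let e : MvPolynomial ι K ≃ₐ[MvPolynomial ι K] Algebra.adjoin K (Set.range v) :=
      AlgEquiv.ofRingEquiv (f := hb.aevalEquiv.toRingEquiv) (fun x => rfl)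
    exact Algebra.FormallyEtale.of_equiv e
  have h2 : (algebraMap (Algebra.adjoin K (Set.range v))
      (IntermediateField.adjoin K (Set.range v))).FormallyEtale :=
    RingHom.formallyEtale_algebraMap.mpr
      (Algebra.FormallyEtale.of_isLocalization (nonZeroDivisors (Algebra.adjoin K (Set.range v))))
  have h3 : (algebraMap (IntermediateField.adjoin K (Set.range v)) F).FormallyEtale :=
    RingHom.formallyEtale_algebraMap.mpr (Algebra.FormallyEtale.of_isSeparable _ F)
  have h := (h1.comp h2).comp h3
  convert h using 1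
  ext p
  · simp
  · simp

end basis

theorem nonempty_basis_kaehler {ι : Type*} {v : ι → F} (hb : AlgebraicIndependent K v)
    [Algebra.IsSeparable (IntermediateField.adjoin K (Set.range v)) F] :
    Nonempty (Module.Basis ι F Ω[F⁄K]) := by
  have hf := formallyEtale_aeval hb
  let _ : Algebra (MvPolynomial ι K) F :=
    ((MvPolynomial.aeval v : MvPolynomial ι K →ₐ[K] F) : MvPolynomial ι K →+* F).toAlgebra
  have : IsScalarTower K (MvPolynomial ι K) F :=
    IsScalarTower.of_algebraMap_eq (fun c => by
      simp [RingHom.algebraMap_toAlgebra])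
  have : Algebra.FormallyEtale (MvPolynomial ι K) F := hf
  exact ⟨((mvPolynomialBasis K ι).baseChange F).map
    (tensorKaehlerEquivOfFormallyEtale K (MvPolynomial ι K) F)⟩

theorem exists_transcendental_finiteDimensional [CharZero K] [Algebra.EssFiniteType K F]
    (h : Module.finrank F Ω[F⁄K] = 1) :
    ∃ x : F, Transcendental K x ∧ FiniteDimensional K⟮x⟯ F := by
  obtain ⟨s, hs, hsep⟩ := exists_isTranscendenceBasis_and_isSeparable_of_perfectField K F
  have hsep' : Algebra.IsSeparable (IntermediateField.adjoin K (Set.range ((↑) : s → F))) F := by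
    convert! hsep <;> simp
  obtain ⟨b⟩ := nonempty_basis_kaehler hs.1
  have hcard : Module.finrank F Ω[F⁄K] = Fintype.card s := Module.finrank_eq_card_basis b
  rw [h] at hcard
  obtain ⟨x, hx⟩ := Finset.card_eq_one.mp (by simpa using hcard.symm)
  subst hx
  refine ⟨x, ?_, ?_⟩
  · have hxmem : x ∈ ({x} : Finset F) := by simp
    exact hs.1.transcendental ⟨x, hxmem⟩
  · have hsep2 : Algebra.IsSeparable K⟮x⟯ F := by
      convert! hsep <;> simp
    have : Algebra.IsAlgebraic K⟮x⟯ F := Algebra.IsSeparable.isAlgebraic _ _
    have : Algebra.EssFiniteType K⟮x⟯ F := Algebra.EssFiniteType.of_comp K K⟮x⟯ F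
    exact Algebra.finite_of_essFiniteType_of_isAlgebraic

theorem ord_neg' (v : Place K F) (y : F) : v.ord (-y) = v.ord y := by
  unfold Place.ord
  rw [Valuation.map_neg]

/-- ultrametric equality. -/
theorem ord_add_eq_of_lt (v : Place K F) {x y : F} (hx : x ≠ 0) (h : v.ord x < v.ord y) :
    v.ord (x + y) = v.ord x := by
  rcases eq_or_ne y 0 with rfl | hy
  · rw [add_zero]
  have hxy : x + y ≠ 0 := by
    intro h0
    have : y = -x := by linear_combination h0
    rw [this, ord_neg'] at h
    exact lt_irrefl _ h
  have h1 := Fermat.Agent.S24.A564.SO.Place_ord_add_ge v hxy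
  have h2 := Fermat.Agent.S24.A564.SO.Place_ord_add_ge v (f := x + y) (g := -y) (by simpa using hx)
  rw [add_neg_cancel_right, ord_neg'] at h2
  rcases le_total (v.ord x) (v.ord y) with h3 | h3
  · rw [min_eq_left h3] at h1
    rcases le_total (v.ord (x + y)) (v.ord y) with h4 | h4
    · rw [min_eq_left h4] at h2; omega
    · rw [min_eq_right h4] at h2; omega
  · omega

theorem const_unique (v : Place K F) (x : F) {c c' : K}
    (h : 0 < v.ord (x - algebraMap K F c)) (h' : 0 < v.ord (x - algebraMap K F c')) :
    c = c' := by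
  by_contra hne
  have hcc : algebraMap K F (c - c') ≠ 0 := by
    rw [Ne, map_eq_zero, sub_eq_zero]
    exact hne
  have hsum : (x - algebraMap K F c') + -(x - algebraMap K F c) = algebraMap K F (c - c') := by
    rw [map_sub]; ring
  have h1 := Fermat.Agent.S24.A564.SO.Place_ord_add_ge v (f := x - algebraMap K F c')
    (g := -(x - algebraMap K F c)) (by rw [hsum]; exact hcc)
  rw [hsum, Fermat.Agent.S24.A564.SO.Place_ord_algebraMap, ord_neg'] at h1
  exact absurd (lt_of_lt_of_le (lt_min h' h) h1) (lt_irrefl 0)

theorem transcendental_sub_const {x : F} (hx : Transcendental K x) (c : K) :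
    Transcendental K (x - algebraMap K F c) := by
  intro h
  apply hx
  have := h.add (isAlgebraic_algebraMap (R := K) (A := F) c)
  simpa using this

end A68

open AlgebraicCurve IntermediateField

variable {K F : Type*} [Field K] [Field F] [Algebra K F]
variable [IsAlgClosed K] [CharZero K] [IsCurveOver K F] [Algebra.EssFiniteType K F]

/-! ## A. Structure -/

/-- `F` is a function field of one variable. -/
theorem isFF (K F : Type*) [Field K] [Field F] [Algebra K F] [IsAlgClosed K] [CharZero K]
    [IsCurveOver K F] [Algebra.EssFiniteType K F] :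
    ∃ x : F, Transcendental K x ∧ FiniteDimensional K⟮x⟯ F :=
  A68.exists_transcendental_finiteDimensional IsCurveOver.finrank_kaehler

/-- For every transcendental `x`, `F / K(x)` is finite. -/
theorem finite_of_transcendental {x : F} (hx : Transcendental K x) :
    FiniteDimensional K⟮x⟯ F := by
  obtain ⟨x0, hx0, hfd⟩ := isFF K F
  haveI := hfd
  haveI := Fermat.Agent.S24.A564.KR.isAlgebraic_adjoin_of_transcendental x0 x hx0 hx
  haveI : Algebra.EssFiniteType K⟮x⟯ F := Algebra.EssFiniteType.of_comp K K⟮x⟯ F
  exact Algebra.finite_of_essFiniteType_of_isAlgebraic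

theorem residue_bijective (P : Place K F) :
    Function.Bijective (algebraMap K P.ResidueField) := by
  haveI : Module.Finite K P.ResidueField := IsCurveOver.finiteResidue P
  haveI : Algebra.IsIntegral K P.ResidueField := Algebra.IsIntegral.of_finite K P.ResidueField
  exact IsAlgClosed.algebraMap_bijective_of_isIntegral

theorem mem_valuationSubring_iff (P : Place K F) (f : F) :
    f ∈ P.toValuationSubring ↔ 0 ≤ P.ord f := by
  rcases eq_or_ne f 0 with rfl | hf
  · simp [Place.ord_zero, zero_mem]
  · exact Fermat.Agent.S24.A564.SO.Place_mem_iff P hf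

theorem ord_add_ge (P : Place K F) {f g : F} (hfg : f + g ≠ 0) :
    min (P.ord f) (P.ord g) ≤ P.ord (f + g) :=
  Fermat.Agent.S24.A564.SO.Place_ord_add_ge P hfg

theorem ord_algebraMap (P : Place K F) (c : K) : P.ord (algebraMap K F c) = 0 :=
  Fermat.Agent.S24.A564.SO.Place_ord_algebraMap P c

theorem exists_uniformizer (P : Place K F) : ∃ t : F, P.ord t = 1 := by
  obtain ⟨π, hπ⟩ := IsDiscreteValuationRing.exists_irreducible P.toValuationSubring
  exact ⟨π, P.ord_coe_irreducible hπ⟩

theorem divF_mul {f g : F} (hf : f ≠ 0) (hg : g ≠ 0) :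
    (divF (f * g) : Divisor K F) = divF f + divF g := by
  ext v
  rw [Finsupp.add_apply, divF_apply, divF_apply, divF_apply, v.ord_mul hf hg]

theorem divF_inv (f : F) : (divF f⁻¹ : Divisor K F) = -divF f := by
  ext v
  rw [Finsupp.neg_apply, divF_apply, divF_apply, v.ord_inv]

theorem divF_pow (f : F) (n : ℕ) : (divF (f ^ n) : Divisor K F) = n • divF f := by
  ext v
  rw [Finsupp.smul_apply, divF_apply, divF_apply, ← zpow_natCast, v.ord_zpow]
  simp

theorem divF_algebraMap (c : K) : (divF (algebraMap K F c) : Divisor K F) = 0 := by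
  ext v
  rw [divF_apply, ord_algebraMap, Finsupp.zero_apply]

/-- A function without poles is constant. -/
theorem exists_eq_algebraMap_of_ord_nonneg {f : F} (h : ∀ P : Place K F, 0 ≤ P.ord f) :
    ∃ c : K, f = algebraMap K F c := by
  obtain ⟨x, hx, hfd⟩ := isFF K F
  haveI := hfd
  obtain ⟨-, -, h1, -⟩ := RR68.riemann_roch_charZero x hx
  have hfmem : f ∈ riemannRochSpace (0 : Divisor K F) :=
    mem_riemannRochSpace_iff.mpr fun v => Or.inr (by simpa using h v)
  have h1mem : (1 : F) ∈ riemannRochSpace (0 : Divisor K F) :=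
    mem_riemannRochSpace_iff.mpr fun v => Or.inr (by simp [Place.ord_one])
  have hne : (⟨1, h1mem⟩ : riemannRochSpace (0 : Divisor K F)) ≠ 0 := by
    intro h0
    have := congrArg Subtype.val h0
    exact one_ne_zero this
  obtain ⟨c, hc⟩ := (finrank_eq_one_iff_of_nonzero' _ hne).mp h1 ⟨f, hfmem⟩
  refine ⟨c, ?_⟩
  have := congrArg Subtype.val hc
  simp only [Submodule.coe_smul] at this
  rw [← this, Algebra.smul_def, mul_one]

/-- A function without zeros and poles is constant. -/
theorem divF_eq_zero_iff {f : F} (hf : f ≠ 0) :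
    (divF f : Divisor K F) = 0 ↔ ∃ c : K, f = algebraMap K F c := by
  constructor
  · intro h
    apply exists_eq_algebraMap_of_ord_nonneg
    intro P
    have := congrArg (fun D : Divisor K F => D P) h
    simp only [divF_apply, Finsupp.zero_apply] at this
    rw [this]
  · rintro ⟨c, rfl⟩
    exact divF_algebraMap c

theorem infinite_place (K F : Type*) [Field K] [Field F] [Algebra K F] [IsAlgClosed K]
    [CharZero K] [IsCurveOver K F] [Algebra.EssFiniteType K F] : Infinite (Place K F) := by
  classical
  obtain ⟨x, hx, hfd⟩ := isFF K F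
  have key : ∀ c : K, ∃ v : Place K F, 0 < v.ord (x - algebraMap K F c) := by
    intro c
    have hxc := A68.transcendental_sub_const hx c
    haveI := finite_of_transcendental hxc
    obtain ⟨S, hS, hsum⟩ :=
      Fermat.Agent.S24.A564.SO.exists_finset_zeros_sum_ord (x - algebraMap K F c) hxc
    have hpos : 0 < Module.finrank K⟮x - algebraMap K F c⟯ F := Module.finrank_pos
    rcases S.eq_empty_or_nonempty with rfl | ⟨v, hv⟩
    · simp at hsum
      omega
    · exact ⟨v, (hS v).mp hv⟩
  choose P hP using key
  exact Infinite.of_injective P fun c c' hcc => A68.const_unique (P c) x (hP c) (hcc ▸ hP c')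

/-- Weak approximation: approximate given functions to given precision. -/
theorem exists_approx (S : Finset (Place K F)) (a : Place K F → F) (N : ℤ) :
    ∃ f : F, ∀ v ∈ S, f = a v ∨ N ≤ v.ord (f - a v) := by
  classical
  haveI := infinite_place K F
  have hfin : ∀ v : Place K F, Module.Finite K v.ResidueField := IsCurveOver.finiteResidue
  have hdeg1 : ∀ v : Place K F, v.deg = 1 := IsCurveOver.deg_eq_one_of_isAlgClosed
  obtain ⟨x, hx, hfd⟩ := isFF K F
  haveI := hfd
  obtain ⟨B, hB, hdeg, -⟩ := RR68.exists_pole_divisor_sep hfin x hx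
  obtain ⟨c, hR⟩ := RR68.exists_riemann_bound hfin x hx B hB hdeg
  obtain ⟨c', hc'⟩ := RR68.exists_degree_bound_H1_eq_zero hfin c hR
  obtain ⟨Q, hQ⟩ := Infinite.exists_notMem_finset S
  set m : ℤ := c' + N * S.card with hm
  set D : Divisor K F := (∑ w ∈ S, Finsupp.single w (-N)) + Finsupp.single Q m with hD
  have hDdeg : Divisor.degree D = c' := by
    rw [hD, map_add, map_sum, Divisor.degree_single, hdeg1 Q]
    simp only [Divisor.degree_single, hdeg1, Nat.cast_one, mul_one, Finset.sum_const,
      nsmul_eq_mul]
    rw [hm]; ring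
  have hDv : ∀ v ∈ S, D v = -N := by
    intro v hv
    rw [hD, Finsupp.add_apply, Finsupp.finset_sum_apply]
    have hne : Q ≠ v := fun h => hQ (h ▸ hv)
    rw [Finsupp.single_apply, if_neg hne, add_zero]
    simp only [Finsupp.single_apply]
    rw [Finset.sum_ite_eq' S v (fun _ => -N), if_pos hv]
  have hH1 := hc' D hDdeg.ge
  haveI := RR68.finite_H1 hfin c hR D
  have hz : ∀ y : H1 D, y = 0 := finrank_zero_iff_forall_zero.mp hH1
  have hαmem : (fun v : Place K F => if v ∈ S then a v else 0) ∈ repartitions K F := by
    apply mem_repartitions_of_finite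
    refine S.finite_toSet.subset fun v hv => ?_
    rw [Set.mem_setOf_eq] at hv
    by_contra hvS
    apply hv
    have hvS' : v ∉ S := hvS
    show v.adicValuation (if v ∈ S then a v else 0) ≤ 1
    rw [if_neg hvS']
    simp
  have h0 := hz (Submodule.Quotient.mk ⟨_, hαmem⟩)
  rw [Submodule.Quotient.mk_eq_zero] at h0
  obtain ⟨β, hβ, γ, hγ, hsum⟩ := Submodule.mem_sup.mp h0
  obtain ⟨f, hf⟩ := mem_principalRepartitions_iff.mp hγ
  refine ⟨f, fun v hv => ?_⟩
  have hval : (β : Place K F → F) v + f = a v := by
    have := congrArg (fun α : ↥(repartitions K F) => (α : Place K F → F) v) hsum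
    simp only at this
    rw [show ((β + γ : ↥(repartitions K F)) : Place K F → F) v
      = (β : Place K F → F) v + (γ : Place K F → F) v from rfl, hf, if_pos hv] at this
    exact this
  have hβv := (mem_repartitionsOf_iff.mp hβ) v
  rw [hDv v hv] at hβv
  have hβeq : (β : Place K F → F) v = -(f - a v) := by rw [← hval]; ring
  rw [hβeq, A68.ord_neg'] at hβv
  rcases hβv with h | h
  · left
    have := neg_eq_zero.mp h
    exact sub_eq_zero.mp this
  · right
    simpa using h

/-- Weak approximation: prescribed orders at finitely many places. -/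
theorem exists_ord_eq (S : Finset (Place K F)) (n : Place K F → ℤ) :
    ∃ f : F, f ≠ 0 ∧ ∀ v ∈ S, v.ord f = n v := by
  classical
  rcases S.eq_empty_or_nonempty with rfl | hne
  · exact ⟨1, one_ne_zero, fun v hv => by simp at hv⟩
  have ht : ∀ v : Place K F, ∃ t : F, v.ord t = 1 := fun v => exists_uniformizer v
  choose t ht using ht
  have ht0 : ∀ v, t v ≠ 0 := fun v h => by
    have := ht v
    rw [h, Place.ord_zero] at this
    exact zero_ne_one this
  let a : Place K F → F := fun v => t v ^ n v
  have ha0 : ∀ v, a v ≠ 0 := fun v => zpow_ne_zero _ (ht0 v)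
  have ha : ∀ v, v.ord (a v) = n v := fun v => by
    show v.ord (t v ^ n v) = n v
    rw [v.ord_zpow, ht v, mul_one]
  set N : ℤ := (∑ v ∈ S, |n v|) + 1 with hN
  have hNn : ∀ v ∈ S, n v < N := by
    intro v hv
    have h1 : |n v| ≤ ∑ w ∈ S, |n w| :=
      Finset.single_le_sum (f := fun w => |n w|) (fun _ _ => abs_nonneg _) hv
    have h2 := le_abs_self (n v)
    omega
  obtain ⟨f, hf⟩ := exists_approx S a N
  have key : ∀ v ∈ S, f ≠ 0 ∧ v.ord f = n v := by
    intro v hv
    rcases hf v hv with h | h
    · rw [h]; exact ⟨ha0 v, ha v⟩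
    · have hlt : v.ord (a v) < v.ord (f - a v) := by
        rw [ha v]; have := hNn v hv; omega
      have := A68.ord_add_eq_of_lt v (ha0 v) hlt
      rw [add_sub_cancel] at this
      refine ⟨?_, by rw [this, ha v]⟩
      rintro rfl
      rw [zero_sub, A68.ord_neg'] at hlt
      exact lt_irrefl _ hlt
  obtain ⟨v0, hv0⟩ := hne
  exact ⟨f, (key v0 hv0).1, fun v hv => (key v hv).2⟩

/-- An effective divisor of degree `0` is `0`; degree of a point is `1`. -/
theorem degree_pt (P : Place K F) : Divisor.degree (pt P) = 1 := by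
  rw [Divisor.degree_single, IsCurveOver.deg_eq_one_of_isAlgClosed P]
  simp

theorem degree_nonneg_of_nonneg {D : Divisor K F} (h : 0 ≤ D) : 0 ≤ Divisor.degree D :=
  RR68.degree_nonneg h

theorem eq_zero_of_nonneg_of_degree {D : Divisor K F} (h : 0 ≤ D)
    (hd : Divisor.degree D = 0) : D = 0 := by
  classical
  by_contra hne
  obtain ⟨P, hP⟩ := RR68.exists_lt_of_le_of_ne h (Ne.symm hne)
  have hle : pt P ≤ D := by
    rw [Finsupp.le_def]
    intro v
    by_cases hv : v = P
    · subst hv
      simp only [Finsupp.single_eq_same]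
      have : (0 : Divisor K F) v < D v := hP
      simp only [Finsupp.zero_apply] at this
      omega
    · rw [Finsupp.single_apply, if_neg (Ne.symm hv)]
      exact Finsupp.le_def.mp h v
  have := RR68.degree_mono hle
  rw [degree_pt, hd] at this
  omega

end Fermat.Agent.S17.FND
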