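import Fermat.Agent.S17.FND.A

/-!
# S17 / FND leaf B — Riemann–Roch with canonical divisor (helper68)

All 17 frozen statements of leaf B of `Fermat/Agent/S17/FND/Skel.lean` (v0), verbatim, on top of
leaf A and the Riemann–Roch library `Fermat/Agent/S17/FND/RR68/*` (helper68;
`RR68.riemann_roch_charZero`).
-/

set_option autoImplicit false

noncomputable section

namespace Fermat.Agent.S17.FND

open AlgebraicCurve IntermediateField

variable {K F : Type*} [Field K] [Field F] [Algebra K F]
variable [IsAlgClosed K] [CharZero K] [IsCurveOver K F] [Algebra.EssFiniteType K F]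

namespace B68

/-- the full package from the library. -/
theorem rr (K F : Type*) [Field K] [Field F] [Algebra K F] [IsAlgClosed K] [CharZero K]
    [IsCurveOver K F] [Algebra.EssFiniteType K F] :
    (∀ D : Divisor K F, Module.Finite K (riemannRochSpace D)) ∧
    ell (0 : Divisor K F) = 1 ∧
    ∃ W : Divisor K F,
      Divisor.degree W = 2 * (genusFF K F : ℤ) - 2 ∧
      ∀ D : Divisor K F, (ell D : ℤ) = Divisor.degree D + 1 - genusFF K F + ell (W - D) := by
  obtain ⟨x, hx, hfd⟩ := isFF K F
  haveI := hfd
  obtain ⟨h1, -, h3, W, hW1, -, -, hW4⟩ := RR68.riemann_roch_charZero x hx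
  exact ⟨h1, h3, W, hW1, hW4⟩

theorem hfin : ∀ v : Place K F, Module.Finite K v.ResidueField := IsCurveOver.finiteResidue

theorem ell_eq (D : Divisor K F) : ell D = RR68.ell D := rfl

theorem mem_RR_of_ne {D : Divisor K F} {f : F} (hf : f ≠ 0) :
    f ∈ riemannRochSpace D ↔ 0 ≤ divF f + D := by
  rw [mem_riemannRochSpace_iff, Finsupp.le_def]
  refine forall_congr' fun v => ?_
  rw [Finsupp.add_apply, divF_apply, Finsupp.zero_apply]
  constructor
  · rintro (h | h)
    · exact absurd h hf
    · omega
  · intro h
    right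
    omega

/-- nonzero element of `L(D)` when `ell D > 0`. -/
theorem exists_ne_zero_mem {D : Divisor K F} (h : 0 < ell D) :
    ∃ f : F, f ≠ 0 ∧ f ∈ riemannRochSpace D := by
  haveI : Module.Finite K (riemannRochSpace D) := (rr K F).1 D
  have hnt : Nontrivial (riemannRochSpace D) := Module.finrank_pos_iff.mp h
  obtain ⟨y, hy⟩ := exists_ne (0 : riemannRochSpace D)
  refine ⟨y, ?_, y.2⟩
  intro h0
  exact hy (Subtype.ext h0)

end B68

/-! ## B. Riemann–Roch -/

theorem mem_RR_iff (D : Divisor K F) (f : F) :
    f ∈ riemannRochSpace D ↔ f = 0 ∨ 0 ≤ divF f + D := by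
  rcases eq_or_ne f 0 with rfl | hf
  · simp
  · rw [B68.mem_RR_of_ne hf]
    simp [hf]

theorem finite_RR (D : Divisor K F) : Module.Finite K (riemannRochSpace D) :=
  (B68.rr K F).1 D

theorem ell_zero : ell (0 : Divisor K F) = 1 :=
  (B68.rr K F).2.1

theorem ell_eq_zero_of_degree_neg {D : Divisor K F} (h : Divisor.degree D < 0) :
    ell D = 0 := by
  unfold ell
  rw [RR68.riemannRochSpace_eq_bot_of_degree_neg h]
  simp

theorem ell_mono {D D' : Divisor K F} (h : D ≤ D') : ell D ≤ ell D' := by
  haveI := finite_RR D'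
  exact Submodule.finrank_mono (RR68.riemannRochSpace_mono h)

theorem ell_add_pt_le (D : Divisor K F) (P : Place K F) : ell (D + pt P) ≤ ell D + 1 := by
  haveI := infinite_place K F
  have hle : D ≤ D + pt P := by
    have : (0 : Divisor K F) ≤ pt P := by
      rw [Finsupp.le_def]
      intro v
      classical
      rw [Finsupp.single_apply]
      split_ifs <;> simp
    simpa using add_le_add_left this D
  have h := RR68.degree_sub_ell_mono B68.hfin hle
  rw [map_add, degree_pt, ← B68.ell_eq, ← B68.ell_eq] at h
  omega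

/-- `ℓ` depends only on the linear equivalence class (multiplication by `f` is an isomorphism
`L(D + div f) ≃ L(D)`). -/
theorem ell_add_divF (D : Divisor K F) {f : F} (hf : f ≠ 0) :
    ell (D + divF f) = ell D :=
  RR68.ell_add_principal D (divF f) f hf fun v => divF_apply f v

theorem mul_mem_RR {D E : Divisor K F} {f g : F} (hf : f ∈ riemannRochSpace D)
    (hg : g ∈ riemannRochSpace E) : f * g ∈ riemannRochSpace (D + E) := by
  rw [mem_riemannRochSpace_iff] at hf hg ⊢
  intro v
  rcases eq_or_ne f 0 with rfl | hf0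
  · left; simp
  rcases eq_or_ne g 0 with rfl | hg0
  · left; simp
  right
  have h1 := (hf v).resolve_left hf0
  have h2 := (hg v).resolve_left hg0
  rw [v.ord_mul hf0 hg0, Finsupp.add_apply]
  omega

/-- Riemann–Roch: a canonical divisor exists. -/
theorem exists_canonical (K F : Type*) [Field K] [Field F] [Algebra K F] [IsAlgClosed K]
    [CharZero K] [IsCurveOver K F] [Algebra.EssFiniteType K F] :
    ∃ W : Divisor K F, IsCanonical W := by
  obtain ⟨-, -, W, -, hW⟩ := B68.rr K F
  refine ⟨W, fun D => ?_⟩
  have := hW D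
  omega

theorem IsCanonical.degree {W : Divisor K F} (hW : IsCanonical W) :
    Divisor.degree W = 2 * (genusFF K F : ℤ) - 2 := by
  have h1 := hW 0
  have h2 := hW W
  rw [sub_zero, map_zero] at h1
  rw [sub_self] at h2
  omega

theorem IsCanonical.ell {W : Divisor K F} (hW : IsCanonical W) : ell W = genusFF K F := by
  have h1 := hW 0
  rw [sub_zero, map_zero, ell_zero] at h1
  have : (FND.ell W : ℤ) = genusFF K F := by
    push_cast at h1
    omega
  exact_mod_cast this

/-- Riemann's inequality. -/
theorem ell_ge (D : Divisor K F) :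
    Divisor.degree D + 1 - genusFF K F ≤ (ell D : ℤ) := by
  obtain ⟨W, hW⟩ := exists_canonical K F
  have := hW D
  have h0 : (0 : ℤ) ≤ ell (W - D) := Int.natCast_nonneg _
  omega

theorem ell_eq_of_degree_gt {D : Divisor K F}
    (h : 2 * (genusFF K F : ℤ) - 2 < Divisor.degree D) :
    (ell D : ℤ) = Divisor.degree D + 1 - genusFF K F := by
  obtain ⟨W, hW⟩ := exists_canonical K F
  have h1 := hW D
  have hdeg := hW.degree
  have h2 : ell (W - D) = 0 := by
    apply ell_eq_zero_of_degree_neg
    rw [map_sub]
    omega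
  rw [h2] at h1
  push_cast at h1
  omega

/-- Base-point freeness: `deg D ≥ 2g` implies `ℓ(D - P) = ℓ(D) - 1` for every `P`. -/
theorem ell_sub_pt {D : Divisor K F} (h : 2 * (genusFF K F : ℤ) ≤ Divisor.degree D)
    (P : Place K F) : ell (D - pt P) + 1 = ell D := by
  have h1 := ell_eq_of_degree_gt (D := D) (by omega)
  have h2 := ell_eq_of_degree_gt (D := D - pt P) (by rw [map_sub, degree_pt]; omega)
  rw [map_sub, degree_pt] at h2
  have : ((ell (D - pt P) + 1 : ℕ) : ℤ) = ell D := by
    push_cast
    omega
  exact_mod_cast this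

/-- If `ℓ(D) > 0`, all but finitely many points impose a condition on `L(D)`. -/
theorem finite_basePoints {D : Divisor K F} (h : 0 < ell D) :
    {P : Place K F | ell (D - pt P) = ell D}.Finite := by
  classical
  obtain ⟨f, hf0, hf⟩ := B68.exists_ne_zero_mem h
  have hE := (B68.mem_RR_of_ne hf0).mp hf
  refine (divF f + D).support.finite_toSet.subset fun P hP => ?_
  rw [Set.mem_setOf_eq] at hP
  haveI := finite_RR D
  have hle : riemannRochSpace (D - pt P) ≤ riemannRochSpace D := by
    apply RR68.riemannRochSpace_mono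
    have : (0 : Divisor K F) ≤ pt P := by
      rw [Finsupp.le_def]
      intro v
      rw [Finsupp.single_apply]
      split_ifs <;> simp
    simpa using sub_le_sub_left this D
  have heq : riemannRochSpace (D - pt P) = riemannRochSpace D :=
    Submodule.eq_of_le_of_finrank_eq hle hP
  have hf' : f ∈ riemannRochSpace (D - pt P) := heq ▸ hf
  have h2 := Finsupp.le_def.mp ((B68.mem_RR_of_ne hf0).mp hf') P
  simp only [Finsupp.zero_apply, Finsupp.add_apply, Finsupp.sub_apply,
    Finsupp.single_eq_same] at h2
  simp only [Finset.mem_coe, Finsupp.mem_support_iff, Finsupp.add_apply]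
  omega

/-- If `ℓ(D) = 1` and `D ≥ 0`, then `D` is the only effective divisor in its class. -/
theorem eq_of_ell_eq_one {D E : Divisor K F} (hD : 0 ≤ D) (hE : 0 ≤ E) (h1 : ell D = 1)
    {f : F} (hf : f ≠ 0) (hDE : E = D + divF f) : E = D := by
  have hfmem : f ∈ riemannRochSpace D := by
    rw [B68.mem_RR_of_ne hf, add_comm, ← hDE]
    exact hE
  have h1mem : (1 : F) ∈ riemannRochSpace D :=
    mem_riemannRochSpace_iff.mpr fun v => Or.inr (by
      have := Finsupp.le_def.mp hD v
      simp only [Finsupp.zero_apply] at this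
      rw [Place.ord_one]
      omega)
  have hne : (⟨1, h1mem⟩ : riemannRochSpace D) ≠ 0 := by
    intro h0
    have := congrArg Subtype.val h0
    exact one_ne_zero this
  obtain ⟨c, hc⟩ := (finrank_eq_one_iff_of_nonzero' _ hne).mp h1 ⟨f, hfmem⟩
  have hfc : f = algebraMap K F c := by
    have := congrArg Subtype.val hc
    simp only [Submodule.coe_smul] at this
    rw [← this, Algebra.smul_def, mul_one]
  rw [hDE, hfc, divF_algebraMap, add_zero]

/-- Every class of degree `≥ g` contains an effective divisor. -/
theorem exists_effective {D : Divisor K F} (h : (genusFF K F : ℤ) ≤ Divisor.degree D) :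
    ∃ f : F, f ≠ 0 ∧ 0 ≤ D + divF f := by
  have h1 := ell_ge D
  have hpos : 0 < ell D := by
    have : (0 : ℤ) < ell D := by omega
    exact_mod_cast this
  obtain ⟨f, hf0, hf⟩ := B68.exists_ne_zero_mem hpos
  refine ⟨f, hf0, ?_⟩
  rw [add_comm]
  exact (B68.mem_RR_of_ne hf0).mp hf

end Fermat.Agent.S17.FND
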