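/-
S17 / FND leaf B2 — corollaries of Riemann–Roch (new in Skel v1; PROVED, helper8457).
-/
import Fermat.Agent.S17.FND.B

set_option autoImplicit false

noncomputable section

namespace Fermat.Agent.S17.FND

open AlgebraicCurve IntermediateField

variable {K F : Type*} [Field K] [Field F] [Algebra K F]
variable [IsAlgClosed K] [CharZero K] [IsCurveOver K F] [Algebra.EssFiniteType K F]

/-! ## B2. Corollaries of Riemann–Roch -/

theorem degree_sub_pt (D : Divisor K F) (P : Place K F) :
    Divisor.degree (D - pt P) = Divisor.degree D - 1 := by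
  rw [map_sub, degree_pt]

/-- Very ampleness: `deg D ≥ 2g + 1` implies `ℓ(D - P - Q) = ℓ(D) - 2` for all `P`, `Q`
(including `P = Q`). -/
theorem ell_sub_pt_sub_pt {D : Divisor K F}
    (h : 2 * (genusFF K F : ℤ) + 1 ≤ Divisor.degree D) (P Q : Place K F) :
    ell (D - pt P - pt Q) + 2 = ell D := by
  have h1 : ell (D - pt P) + 1 = ell D := ell_sub_pt (by omega) P
  have h2 : ell (D - pt P - pt Q) + 1 = ell (D - pt P) :=
    ell_sub_pt (by rw [degree_sub_pt]; omega) Q
  omega

/-- `ℓ(D) = deg D + 1 - g` as a natural-number statement, for `deg D ≥ 2g - 1`. -/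
theorem ell_add_genus_eq {D : Divisor K F}
    (h : 2 * (genusFF K F : ℤ) - 2 < Divisor.degree D) :
    (ell D : ℤ) + genusFF K F = Divisor.degree D + 1 := by
  have := ell_eq_of_degree_gt h
  omega

/-- `ℓ(D - P) ≥ ℓ(D) - 1` for every divisor and every point. -/
theorem ell_le_ell_sub_pt_add_one (D : Divisor K F) (P : Place K F) :
    ell D ≤ ell (D - pt P) + 1 := by
  have := ell_add_pt_le (D - pt P) P
  rwa [sub_add_cancel] at this

/-- One-point pole orders: for `n ≥ 2g`, there is a function with a pole of exact order `n` at `P`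
and no other pole. -/
theorem exists_ord_eq_neg {n : ℕ} (hn : 2 * genusFF K F ≤ n) (P : Place K F) :
    ∃ f : F, f ≠ 0 ∧ P.ord f = -(n : ℤ) ∧ ∀ Q : Place K F, Q ≠ P → 0 ≤ Q.ord f := by
  classical
  have hdeg : Divisor.degree ((n : ℤ) • pt P) = n := by
    rw [map_zsmul, degree_pt]; simp
  have h1 : ell ((n : ℤ) • pt P - pt P) + 1 = ell ((n : ℤ) • pt P) :=
    ell_sub_pt (by rw [hdeg]; exact_mod_cast hn) P
  have hfin := finite_RR ((n : ℤ) • pt P)
  have hle : riemannRochSpace ((n : ℤ) • pt P - pt P) ≤ riemannRochSpace ((n : ℤ) • pt P) := by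
    intro f hf
    rw [mem_RR_iff] at hf ⊢
    rcases hf with hf | hf
    · exact Or.inl hf
    · refine Or.inr (le_trans hf ?_)
      have : (0 : Divisor K F) ≤ pt P := by
        intro v
        simp only [Finsupp.coe_zero, Pi.zero_apply, pt, Finsupp.single_apply]
        split_ifs <;> simp
      simp [this]
  have hlt : riemannRochSpace ((n : ℤ) • pt P - pt P) < riemannRochSpace ((n : ℤ) • pt P) := by
    refine lt_of_le_of_ne hle fun heq => ?_
    have : ell ((n : ℤ) • pt P - pt P) = ell ((n : ℤ) • pt P) := by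
      unfold ell; rw [heq]
    omega
  obtain ⟨f, hf, hf'⟩ := SetLike.exists_of_lt hlt
  have hf0 : f ≠ 0 := fun h => hf' (h ▸ Submodule.zero_mem _)
  rw [mem_RR_iff] at hf hf'
  have hf1 : (0 : Divisor K F) ≤ divF f + (n : ℤ) • pt P := hf.resolve_left hf0
  have hf2 : ¬ (0 : Divisor K F) ≤ divF f + ((n : ℤ) • pt P - pt P) := fun h => hf' (Or.inr h)
  refine ⟨f, hf0, ?_, ?_⟩
  · have hP := hf1 P
    simp only [Finsupp.coe_zero, Pi.zero_apply, Finsupp.coe_add, Pi.add_apply, divF_apply,
      Finsupp.coe_smul, Pi.smul_apply, pt, Finsupp.single_eq_same, smul_eq_mul, mul_one] at hP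
    by_contra hne
    apply hf2
    intro v
    by_cases hv : v = P
    · subst hv
      simp only [Finsupp.coe_zero, Pi.zero_apply, Finsupp.coe_add, Pi.add_apply, divF_apply,
        Finsupp.coe_sub, Pi.sub_apply, Finsupp.coe_smul, Pi.smul_apply, pt,
        Finsupp.single_eq_same, smul_eq_mul, mul_one]
      omega
    · have hv' := hf1 v
      simp only [Finsupp.coe_zero, Pi.zero_apply, Finsupp.coe_add, Pi.add_apply, divF_apply,
        Finsupp.coe_smul, Pi.smul_apply, pt, Finsupp.single_apply, if_neg (Ne.symm hv),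
        smul_eq_mul, mul_zero, add_zero] at hv'
      simp only [Finsupp.coe_zero, Pi.zero_apply, Finsupp.coe_add, Pi.add_apply, divF_apply,
        Finsupp.coe_sub, Pi.sub_apply, Finsupp.coe_smul, Pi.smul_apply, pt, Finsupp.single_apply,
        if_neg (Ne.symm hv), smul_eq_mul, mul_zero, sub_zero, add_zero]
      exact hv'
  · intro Q hQ
    have hv' := hf1 Q
    simpa only [Finsupp.coe_zero, Pi.zero_apply, Finsupp.coe_add, Pi.add_apply, divF_apply,
      Finsupp.coe_smul, Pi.smul_apply, pt, Finsupp.single_apply, if_neg (Ne.symm hQ),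
      smul_eq_mul, mul_zero, add_zero] using hv'

end Fermat.Agent.S17.FND
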