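/-
S17 / FND — function-field foundations: FROZEN DEFINITIONS (sub-architect helper8457), v0.

Everything is stated for the Prelude objects `Place K F`, `Divisor K F`, `riemannRochSpace`,
`genusFF`, `Pic0`.  Standing hypotheses of the package (see `Skel.lean`):
  `[IsAlgClosed K] [CharZero K] [IsCurveOver K F] [Algebra.EssFiniteType K F]`.
Do not edit in a delivery; report problems with a commit `BUG S17 FND Defs <one line>`.
-/
import Mathlib
import Fermat.Prelude.Def_AlgebraicCurve_IsCurveOver
import Fermat.Prelude.Def_AlgebraicCurve_Repartitions
import Fermat.Prelude.Def_AlgebraicCurve_DivisorPushPull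
import Fermat.Prelude.Def_AlgebraicCurve_BaseChangeGalois

set_option autoImplicit false

noncomputable section

namespace Fermat.Agent.S17.FND

open AlgebraicCurve

variable {K F : Type*} [Field K] [Field F] [Algebra K F]

/-- The principal divisor of `f` (junk value `0` for `f = 0`). -/
def divF [HasPrincipalDivisors K F] (f : F) : Divisor K F :=
  open Classical in
  if h : f = 0 then 0 else (HasPrincipalDivisors.exists_divisor (K := K) f h).choose

theorem divF_apply [HasPrincipalDivisors K F] (f : F) (v : Place K F) :
    (divF f : Divisor K F) v = v.ord f := by
  unfold divF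
  split_ifs with h
  · simp [h]
  · exact (HasPrincipalDivisors.exists_divisor (K := K) f h).choose_spec.1 v

theorem degree_divF [HasPrincipalDivisors K F] (f : F) :
    Divisor.degree (divF f : Divisor K F) = 0 := by
  unfold divF
  split_ifs with h
  · simp
  · exact (HasPrincipalDivisors.exists_divisor (K := K) f h).choose_spec.2

/-- `ℓ(D) = dim_K L(D)`. -/
def ell (D : Divisor K F) : ℕ := Module.finrank K (riemannRochSpace D)

/-- The divisor `1 · P`. -/
abbrev pt (P : Place K F) : Divisor K F := Finsupp.single P 1

/-- `W` is a canonical divisor: Riemann–Roch holds with `W`. -/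
def IsCanonical (W : Divisor K F) : Prop :=
  ∀ D : Divisor K F,
    (ell D : ℤ) - ell (W - D) = Divisor.degree D + 1 - genusFF K F

/-- The value `f(P) ∈ K` of a function regular at `P` (junk value `0` at a pole).
For `K` algebraically closed the residue field of `P` is `K` (`residue_bijective`). -/
def evalAt (P : Place K F) (f : F) : K :=
  open Classical in
  if h : f ∈ P.toValuationSubring then
    Function.invFun (algebraMap K P.ResidueField)
      (IsLocalRing.residue P.toValuationSubring ⟨f, h⟩)
  else 0

/-- The value of `f` on a divisor: `f(D) = ∏_P f(P)^(D P)` (meaningful when `f` is a unit at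
every point of the support of `D`). -/
def evalDiv (f : F) (D : Divisor K F) : K := D.prod fun P n => evalAt P f ^ n

/-- The leading coefficient of `f` at `P` with respect to a local parameter `t`:
the value of `f * t ^ (-ord_P f)` at `P` (junk if `ord_P t ≠ 1`). -/
def leadAt (P : Place K F) (t f : F) : K := evalAt P (f * t ^ (-(P.ord f)))

end Fermat.Agent.S17.FND
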