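/-
S17 / FND — leaf C (evaluation at a place): `evalAt_*`, `leadAt_*`.

Statements verbatim from `Fermat/Agent/S17/FND/Skel.lean` (v0, sub-architect helper8457); proofs by
helper1317.  Helper lemmas live in `namespace Fermat.Agent.S17.FND.C1317`; the versions there are
stated for ANY field `K` and ANY place `P` whose residue field is `K`
(hypothesis `Function.Bijective (algebraMap K P.ResidueField)`), so they can be reused outside the
standing hypotheses of the package.

Imports: `FND/Defs.lean` (frozen definitions) and the landed `S24/A564/PlaceBasic.lean` only.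
-/
import Fermat.Agent.S17.FND.Defs
import Fermat.Agent.S24.A564.PlaceBasic

set_option autoImplicit false
set_option linter.unusedSectionVars false

noncomputable section

namespace Fermat.Agent.S17.FND

open AlgebraicCurve

namespace C1317

open Fermat.Agent.S24.A564.SO (Place_mem_of_ord_nonneg Place_ord_nonneg_of_mem)

section General

variable {K F : Type*} [Field K] [Field F] [Algebra K F]

/-- Membership in the valuation ring of a place in terms of `ord`. -/
theorem mem_iff_ord (P : Place K F) (f : F) : f ∈ P.toValuationSubring ↔ 0 ≤ P.ord f :=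
  ⟨Place_ord_nonneg_of_mem P, Place_mem_of_ord_nonneg P⟩

/-- A nonzero element of the valuation ring is a unit iff its order vanishes. -/
theorem isUnit_iff_ord (P : Place K F) {f : F} (hf : f ∈ P.toValuationSubring) (h0 : f ≠ 0) :
    IsUnit (⟨f, hf⟩ : P.toValuationSubring) ↔ P.ord f = 0 := by
  rw [← P.adicValuation_coe_eq_one_iff ⟨f, hf⟩]
  show P.adicValuation f = 1 ↔ _
  rw [P.adicValuation_eq_exp_neg_ord h0, ← WithZero.exp_zero, WithZero.exp_inj]
  omega

/-- The residue class of `f` vanishes iff `f = 0` or `ord_P f > 0`. -/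
theorem residue_eq_zero_iff (P : Place K F) {f : F} (hf : f ∈ P.toValuationSubring) :
    IsLocalRing.residue P.toValuationSubring ⟨f, hf⟩ = 0 ↔ f = 0 ∨ 0 < P.ord f := by
  rw [IsLocalRing.residue_eq_zero_iff, IsLocalRing.mem_maximalIdeal, mem_nonunits_iff]
  rcases eq_or_ne f 0 with rfl | h0
  · simp only [true_or, iff_true]
    intro h
    exact not_isUnit_zero (M₀ := P.toValuationSubring) h
  · rw [isUnit_iff_ord P hf h0]
    have := Place_ord_nonneg_of_mem P hf
    constructor
    · intro h
      right
      omega
    · rintro (h | h)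
      · exact absurd h h0
      · omega

/-- The defining property of `evalAt`: it lifts the residue class. -/
theorem algebraMap_evalAt (P : Place K F)
    (hs : Function.Surjective (algebraMap K P.ResidueField)) {f : F}
    (hf : f ∈ P.toValuationSubring) :
    algebraMap K P.ResidueField (evalAt P f) =
      IsLocalRing.residue P.toValuationSubring ⟨f, hf⟩ := by
  unfold evalAt
  rw [dif_pos hf]
  exact Function.invFun_eq (hs _)

theorem evalAt_of_not_mem (P : Place K F) {f : F} (hf : f ∉ P.toValuationSubring) :
    evalAt P f = 0 := by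
  unfold evalAt
  rw [dif_neg hf]

theorem evalAt_eq_iff_residue (P : Place K F)
    (hb : Function.Bijective (algebraMap K P.ResidueField)) {f : F}
    (hf : f ∈ P.toValuationSubring) (c : K) :
    evalAt P f = c ↔
      IsLocalRing.residue P.toValuationSubring ⟨f, hf⟩ = algebraMap K P.ResidueField c := by
  rw [← algebraMap_evalAt P hb.2 hf]
  exact ⟨fun h => by rw [h], fun h => hb.1 h⟩

theorem evalAt_algebraMap' (P : Place K F)
    (hb : Function.Bijective (algebraMap K P.ResidueField)) (c : K) :
    evalAt P (algebraMap K F c) = c :=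
  (evalAt_eq_iff_residue P hb (P.algebraMap_mem' c) c).mpr rfl

theorem evalAt_add' (P : Place K F)
    (hb : Function.Bijective (algebraMap K P.ResidueField)) {f g : F}
    (hf : f ∈ P.toValuationSubring) (hg : g ∈ P.toValuationSubring) :
    evalAt P (f + g) = evalAt P f + evalAt P g := by
  rw [evalAt_eq_iff_residue P hb (add_mem hf hg), map_add, algebraMap_evalAt P hb.2 hf,
    algebraMap_evalAt P hb.2 hg, ← map_add]
  rfl

theorem evalAt_mul' (P : Place K F)
    (hb : Function.Bijective (algebraMap K P.ResidueField)) {f g : F}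
    (hf : f ∈ P.toValuationSubring) (hg : g ∈ P.toValuationSubring) :
    evalAt P (f * g) = evalAt P f * evalAt P g := by
  rw [evalAt_eq_iff_residue P hb (mul_mem hf hg), map_mul, algebraMap_evalAt P hb.2 hf,
    algebraMap_evalAt P hb.2 hg, ← map_mul]
  rfl

theorem evalAt_eq_zero_iff' (P : Place K F)
    (hb : Function.Bijective (algebraMap K P.ResidueField)) {f : F}
    (hf : f ∈ P.toValuationSubring) :
    evalAt P f = 0 ↔ f = 0 ∨ 0 < P.ord f := by
  rw [evalAt_eq_iff_residue P hb hf, map_zero, residue_eq_zero_iff]

theorem evalAt_eq_iff' (P : Place K F)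
    (hb : Function.Bijective (algebraMap K P.ResidueField)) {f : F}
    (hf : f ∈ P.toValuationSubring) (c : K) :
    evalAt P f = c ↔ f = algebraMap K F c ∨ 0 < P.ord (f - algebraMap K F c) := by
  have hc : algebraMap K F c ∈ P.toValuationSubring := P.algebraMap_mem' c
  have hsub : f - algebraMap K F c ∈ P.toValuationSubring := sub_mem hf hc
  have h1 : (⟨f - algebraMap K F c, hsub⟩ : P.toValuationSubring) =
      ⟨f, hf⟩ - algebraMap K P.toValuationSubring c := Subtype.ext rfl
  have h2 : algebraMap K P.ResidueField c =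
      IsLocalRing.residue P.toValuationSubring (algebraMap K P.toValuationSubring c) := rfl
  have h3 := residue_eq_zero_iff P hsub
  rw [h1, map_sub, sub_eq_zero, sub_eq_zero, ← h2] at h3
  rw [evalAt_eq_iff_residue P hb hf c]
  exact h3

/-- `evalAt` in terms of `ord` alone: value `c` iff `f - c` vanishes at `P`. -/
theorem evalAt_eq_of_ord_pos (P : Place K F)
    (hb : Function.Bijective (algebraMap K P.ResidueField)) {f : F} {c : K}
    (h : 0 < P.ord (f - algebraMap K F c)) : evalAt P f = c := by
  have hsub : f - algebraMap K F c ∈ P.toValuationSubring := Place_mem_of_ord_nonneg P h.le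
  have hf : f ∈ P.toValuationSubring := by
    have := add_mem hsub (P.algebraMap_mem' c)
    simpa using this
  exact (evalAt_eq_iff' P hb hf c).mpr (Or.inr h)

theorem evalAt_one' (P : Place K F)
    (hb : Function.Bijective (algebraMap K P.ResidueField)) : evalAt P (1 : F) = 1 := by
  have := evalAt_algebraMap' P hb (1 : K)
  rwa [map_one] at this

theorem evalAt_inv' (P : Place K F)
    (hb : Function.Bijective (algebraMap K P.ResidueField)) {f : F} (hf : f ≠ 0)
    (h0 : P.ord f = 0) : evalAt P f⁻¹ = (evalAt P f)⁻¹ := by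
  have hfO : f ∈ P.toValuationSubring := Place_mem_of_ord_nonneg P h0.ge
  have hiO : f⁻¹ ∈ P.toValuationSubring :=
    Place_mem_of_ord_nonneg P (by rw [P.ord_inv, h0, neg_zero])
  have h := evalAt_mul' P hb hiO hfO
  rw [inv_mul_cancel₀ hf, evalAt_one' P hb] at h
  exact eq_inv_of_mul_eq_one_left h.symm

theorem evalAt_ne_zero' (P : Place K F)
    (hb : Function.Bijective (algebraMap K P.ResidueField)) {f : F} (hf : f ≠ 0)
    (h0 : P.ord f = 0) : evalAt P f ≠ 0 := by
  have hfO : f ∈ P.toValuationSubring := Place_mem_of_ord_nonneg P h0.ge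
  rw [Ne, evalAt_eq_zero_iff' P hb hfO]
  rintro (h | h)
  · exact hf h
  · omega

theorem evalAt_zpow' (P : Place K F)
    (hb : Function.Bijective (algebraMap K P.ResidueField)) {f : F} (hf : f ≠ 0)
    (h0 : P.ord f = 0) (n : ℤ) : evalAt P (f ^ n) = evalAt P f ^ n := by
  have hfO : f ∈ P.toValuationSubring := Place_mem_of_ord_nonneg P h0.ge
  have hpow : ∀ m : ℕ, evalAt P (f ^ m) = evalAt P f ^ m := by
    intro m
    induction m with
    | zero => rw [pow_zero, pow_zero, evalAt_one' P hb]
    | succ m ih => rw [pow_succ, pow_succ, evalAt_mul' P hb (pow_mem hfO m) hfO, ih]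
  obtain ⟨m, rfl | rfl⟩ := Int.eq_nat_or_neg n
  · rw [zpow_natCast, zpow_natCast, hpow]
  · rw [zpow_neg, zpow_neg, zpow_natCast, zpow_natCast,
      evalAt_inv' P hb (pow_ne_zero m hf) (by
        have := P.ord_zpow f (m : ℤ)
        rw [zpow_natCast] at this
        rw [this, h0, mul_zero]), hpow]

/-- Semilinear equivariance of evaluation, for a place with residue field `K`. -/
theorem evalAt_smul' (g : SemilinearAut K F) (P : Place K F)
    (hb : Function.Bijective (algebraMap K P.ResidueField))
    (hb' : Function.Bijective (algebraMap K (g • P).ResidueField)) (f : F) :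
    evalAt (g • P) (g • f) = SemilinearAut.baseAut g (evalAt P f) := by
  by_cases hf : f ∈ P.toValuationSubring
  · have hgf : g • f ∈ (g • P).toValuationSubring := by
      rw [mem_iff_ord, SemilinearAut.ord_smul]
      exact Place_ord_nonneg_of_mem P hf
    rw [evalAt_eq_iff' (g • P) hb' hgf]
    have h := (evalAt_eq_iff' P hb hf (evalAt P f)).mp rfl
    have hsm : g • (f - algebraMap K F (evalAt P f)) =
        g • f - algebraMap K F (SemilinearAut.baseAut g (evalAt P f)) := by
      rw [smul_sub, SemilinearAut.smul_algebraMap]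
    rcases h with h | h
    · left
      conv_lhs => rw [h]
      exact SemilinearAut.smul_algebraMap g _
    · right
      rw [← hsm, SemilinearAut.ord_smul]
      exact h
  · have hgf : g • f ∉ (g • P).toValuationSubring := by
      rw [mem_iff_ord, SemilinearAut.ord_smul]
      intro h
      exact hf (Place_mem_of_ord_nonneg P h)
    rw [evalAt_of_not_mem P hf, evalAt_of_not_mem (g • P) hgf, map_zero]

theorem ne_zero_of_ord_eq_one (P : Place K F) {t : F} (ht : P.ord t = 1) : t ≠ 0 := by
  rintro rfl
  simp at ht

theorem ord_mul_zpow_neg (P : Place K F) {t f : F} (ht : P.ord t = 1) (hf : f ≠ 0) :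
    P.ord (f * t ^ (-(P.ord f))) = 0 := by
  have ht0 := ne_zero_of_ord_eq_one P ht
  rw [P.ord_mul hf (zpow_ne_zero _ ht0), P.ord_zpow, ht]
  ring

theorem leadAt_ne_zero' (P : Place K F)
    (hb : Function.Bijective (algebraMap K P.ResidueField)) {t f : F} (ht : P.ord t = 1)
    (hf : f ≠ 0) : leadAt P t f ≠ 0 := by
  have ht0 := ne_zero_of_ord_eq_one P ht
  exact evalAt_ne_zero' P hb (mul_ne_zero hf (zpow_ne_zero _ ht0)) (ord_mul_zpow_neg P ht hf)

theorem leadAt_mul' (P : Place K F)
    (hb : Function.Bijective (algebraMap K P.ResidueField)) {t f g : F} (ht : P.ord t = 1)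
    (hf : f ≠ 0) (hg : g ≠ 0) : leadAt P t (f * g) = leadAt P t f * leadAt P t g := by
  have ht0 := ne_zero_of_ord_eq_one P ht
  unfold leadAt
  have hfO : f * t ^ (-(P.ord f)) ∈ P.toValuationSubring :=
    Place_mem_of_ord_nonneg P (ord_mul_zpow_neg P ht hf).ge
  have hgO : g * t ^ (-(P.ord g)) ∈ P.toValuationSubring :=
    Place_mem_of_ord_nonneg P (ord_mul_zpow_neg P ht hg).ge
  rw [← evalAt_mul' P hb hfO hgO, P.ord_mul hf hg, neg_add, zpow_add₀ ht0]
  congr 1
  ring

/-- Under the standing hypotheses of the package every residue field is `K`. -/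
theorem residue_bij {K F : Type*} [Field K] [Field F] [Algebra K F] [IsAlgClosed K]
    [IsCurveOver K F] (P : Place K F) :
    Function.Bijective (algebraMap K P.ResidueField) := by
  have : Module.Finite K P.ResidueField := IsCurveOver.finite_residueField P
  exact IsAlgClosed.algebraMap_bijective_of_isIntegral

end General

end C1317

variable {K F : Type*} [Field K] [Field F] [Algebra K F]
variable [IsAlgClosed K] [CharZero K] [IsCurveOver K F] [Algebra.EssFiniteType K F]

/-! ## C. Evaluation at a place -/

theorem evalAt_algebraMap (P : Place K F) (c : K) : evalAt P (algebraMap K F c) = c :=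
  C1317.evalAt_algebraMap' P (C1317.residue_bij P) c

theorem evalAt_add (P : Place K F) {f g : F} (hf : f ∈ P.toValuationSubring)
    (hg : g ∈ P.toValuationSubring) : evalAt P (f + g) = evalAt P f + evalAt P g :=
  C1317.evalAt_add' P (C1317.residue_bij P) hf hg

theorem evalAt_mul (P : Place K F) {f g : F} (hf : f ∈ P.toValuationSubring)
    (hg : g ∈ P.toValuationSubring) : evalAt P (f * g) = evalAt P f * evalAt P g :=
  C1317.evalAt_mul' P (C1317.residue_bij P) hf hg

theorem evalAt_eq_zero_iff (P : Place K F) {f : F} (hf : f ∈ P.toValuationSubring) :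
    evalAt P f = 0 ↔ f = 0 ∨ 0 < P.ord f :=
  C1317.evalAt_eq_zero_iff' P (C1317.residue_bij P) hf

/-- Characterisation: `f(P)` is the constant `c` with `ord_P (f - c) > 0`. -/
theorem evalAt_eq_iff (P : Place K F) {f : F} (hf : f ∈ P.toValuationSubring) (c : K) :
    evalAt P f = c ↔ f = algebraMap K F c ∨ 0 < P.ord (f - algebraMap K F c) :=
  C1317.evalAt_eq_iff' P (C1317.residue_bij P) hf c

theorem evalAt_inv (P : Place K F) {f : F} (hf : f ≠ 0) (h0 : P.ord f = 0) :
    evalAt P f⁻¹ = (evalAt P f)⁻¹ :=
  C1317.evalAt_inv' P (C1317.residue_bij P) hf h0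

/-- Galois/semilinear equivariance of evaluation. -/
theorem evalAt_smul (g : SemilinearAut K F) (P : Place K F) (f : F) :
    evalAt (g • P) (g • f) = SemilinearAut.baseAut g (evalAt P f) :=
  C1317.evalAt_smul' g P (C1317.residue_bij P) (C1317.residue_bij (g • P)) f

theorem leadAt_ne_zero (P : Place K F) {t f : F} (ht : P.ord t = 1) (hf : f ≠ 0) :
    leadAt P t f ≠ 0 :=
  C1317.leadAt_ne_zero' P (C1317.residue_bij P) ht hf

theorem leadAt_mul (P : Place K F) {t f g : F} (ht : P.ord t = 1) (hf : f ≠ 0) (hg : g ≠ 0) :
    leadAt P t (f * g) = leadAt P t f * leadAt P t g :=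
  C1317.leadAt_mul' P (C1317.residue_bij P) ht hf hg

end Fermat.Agent.S17.FND
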