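/-
S17 / FND — leaf E (finite covers `F'/F`), helper5486.

Statements VERBATIM from `Fermat/Agent/S17/FND/Skel.lean` v0 (sub-architect helper8457), section E:
`isCurveOver_of_finite`, `essFiniteType_of_finite`, `fiber_nonempty`, `sumRamificationInertia`,
`inertiaDeg_eq_one`, `pushforwardNormFormula`, `evalAt_norm`, `evalAt_algebraMap_cover`;
all proofs complete.  Same namespace, same `variable` lines, same names, so this file replaces
section E of the skeleton (do not import both).

Uses only the FROZEN statements `isFF` (leaf A) and `evalAt_eq_iff` (leaf C), the landed S24 library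
(`Fermat.Agent.S24.A564.*`) and the local theorem `E5486.local_main` of `E5486/Local.lean`
(place/prime dictionary for the integral closure of `O_P` in `F'`, `∑ e = [F':F]`, norm formula,
value of a norm via `E5486/NormResidue.lean`).  Helpers live in `Fermat.Agent.S17.FND.E5486`.
-/
import Fermat.Agent.S17.FND.A
import Fermat.Agent.S17.FND.C
import Fermat.Agent.S17.FND.E5486.Local

set_option autoImplicit false
set_option linter.unusedSectionVars false
set_option linter.style.haveILetI false

noncomputable section

namespace Fermat.Agent.S17.FND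

open AlgebraicCurve IntermediateField

/-! ### Helpers (namespace `E5486`) -/

namespace E5486

section Generic

variable {K F : Type*} [Field K] [Field F] [Algebra K F]

/-- GENERIC (as in the BR package, from the landed S24 library): a finite extension `F` of `K(x)`
(`x` transcendental, `K` algebraically closed of characteristic zero) is a curve over `K`. -/
theorem isCurveOver_of_fd [IsAlgClosed K] [CharZero K] (x : F) (hx : Transcendental K x)
    [FiniteDimensional K⟮x⟯ F] : IsCurveOver K F := by
  classical
  have hdeg : ∀ v : Place K F, v.deg = 1 := fun v => Fermat.Agent.S24.A564.deg_eq_one x hx v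
  refine { exists_divisor := ?_, finiteResidue := ?_, kaehler_free_rank_one := ?_ }
  · intro f _
    obtain ⟨T, hT, hsum⟩ := Fermat.Agent.S24.A564.exists_finset_sum_ord_eq_zero x hx f
    refine ⟨Finsupp.onFinset T (fun v => v.ord f)
      (fun v hv => by by_contra h; exact hv (hT v h)), fun v => rfl, ?_⟩
    have h1 : Divisor.degree (Finsupp.onFinset T (fun v : Place K F => v.ord f)
        (fun v hv => by by_contra h; exact hv (hT v h)))
        = ∑ v ∈ T, v.ord f * (v.deg : ℤ) := by
      show Finsupp.sum _ _ = _
      rw [Finsupp.onFinset_sum]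
      · rfl
      · intro v
        show (0 : ℤ) * _ = 0
        rw [zero_mul]
    rw [h1, ← hsum]
    refine Finset.sum_congr rfl fun v _ => ?_
    rw [hdeg v, Nat.cast_one, mul_one]
  · intro v
    obtain ⟨_, hres⟩ := Fermat.Agent.S24.A564.local_facts x hx v
    exact Module.Finite.of_surjective (Algebra.linearMap K v.ResidueField) hres
  · exact ⟨inferInstance, Fermat.Agent.S24.A564.KR.finrank_kaehler x hx⟩

variable {F' : Type*} [Field F'] [Algebra K F'] [Algebra F F'] [IsScalarTower K F F']

theorem transcendental_algebraMap {x : F} (hx : Transcendental K x) :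
    Transcendental K (algebraMap F F' x) := fun h =>
  hx ((isAlgebraic_algebraMap_iff (algebraMap F F').injective).mp h)

theorem algebraMap_mem_adjoin (x : F) (c : K⟮x⟯) :
    algebraMap F F' (c : F) ∈ K⟮algebraMap F F' x⟯ := by
  have h1 : (K⟮x⟯).map (IsScalarTower.toAlgHom K F F') = K⟮algebraMap F F' x⟯ := by
    rw [IntermediateField.adjoin_map, Set.image_singleton]
    rfl
  rw [← h1]
  exact ⟨(c : F), c.2, rfl⟩

/-- If `F / K(x)` and `F' / F` are finite, then `F' / K(x)` is finite. -/
theorem finiteDimensional_cover [Module.Finite F F'] (x : F) [FiniteDimensional K⟮x⟯ F] :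
    FiniteDimensional K⟮algebraMap F F' x⟯ F' := by
  haveI : Module.Finite K⟮x⟯ F' := Module.Finite.trans F F'
  obtain ⟨s, hs⟩ := (Module.finite_def (R := K⟮x⟯) (M := F')).mp inferInstance
  refine ⟨⟨s, ?_⟩⟩
  rw [eq_top_iff]
  intro y hytop
  clear hytop
  have hy : y ∈ Submodule.span K⟮x⟯ (s : Set F') := hs ▸ Submodule.mem_top
  induction hy using Submodule.span_induction with
  | mem z hz => exact Submodule.subset_span hz
  | zero => exact zero_mem _
  | add a b _ _ ha hb => exact add_mem ha hb
  | smul c z _ hz =>
    have hcd : c • z = (⟨algebraMap F F' (c : F), algebraMap_mem_adjoin x c⟩ :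
        K⟮algebraMap F F' x⟯) • z := by
      rw [Algebra.smul_def, Algebra.smul_def]
      rfl
    rw [hcd]
    exact Submodule.smul_mem _ _ hz

end Generic

section Curve

variable {K F : Type*} [Field K] [Field F] [Algebra K F]
variable [IsAlgClosed K] [CharZero K] [IsCurveOver K F] [Algebra.EssFiniteType K F]

/-- Every place of a curve over an algebraically closed field has degree one. -/
theorem deg_eq_one (v : Place K F) : v.deg = 1 := by
  obtain ⟨x, hx, hfin⟩ := isFF K F
  haveI := hfin
  exact Fermat.Agent.S24.A564.deg_eq_one x hx v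

variable {F' : Type*} [Field F'] [Algebra K F'] [Algebra F F'] [IsScalarTower K F F']
  [Module.Finite F F']
variable [IsCurveOver K F'] [Algebra.EssFiniteType K F']

theorem inertiaDeg_eq_one_aux (w : Place K F') : w.inertiaDeg F = 1 := by
  have h := w.deg_restrict_mul_inertiaDeg (F := F)
  rw [deg_eq_one, deg_eq_one, one_mul] at h
  exact h

/-- The local theorem at `P`, with the abstract finite set identified with `P.fiber F'`. -/
theorem fiber_main (P : Place K F) :
    ∑ w ∈ P.fiber F', (w.ramificationIndex F : ℤ) = (Module.finrank F F' : ℤ) ∧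
      (∀ f : F', f ≠ 0 → ∑ w ∈ P.fiber F', w.ord f = P.ord (Algebra.norm F f)) ∧
      (∀ (h : F') (c : Place K F' → K), (∀ w ∈ P.fiber F', h ∈ w.toValuationSubring) →
        (∀ w ∈ P.fiber F', h = algebraMap K F' (c w) ∨ 0 < w.ord (h - algebraMap K F' (c w))) →
        Algebra.norm F h = algebraMap K F (∏ w ∈ P.fiber F', c w ^ w.ramificationIndex F) ∨
          0 < P.ord (Algebra.norm F h
            - algebraMap K F (∏ w ∈ P.fiber F', c w ^ w.ramificationIndex F))) := by
  obtain ⟨T, hT, h1, h2, h3⟩ := local_main (F' := F') P (deg_eq_one P)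
  have hTfiber : P.fiber F' = T := by
    ext w
    rw [Place.mem_fiber, hT]
  rw [hTfiber]
  exact ⟨h1, h2, h3⟩

/-- Value of a norm, for `h` REGULAR (not necessarily a unit) at all places above `P`:
`N(h)` is regular at `P` and `N(h)(P) = ∏_{w | P} h(w)^{e(w|P)}`. -/
theorem evalAt_norm_of_mem (P : Place K F) {h : F'}
    (hreg : ∀ w ∈ P.fiber F', h ∈ w.toValuationSubring) :
    Algebra.norm F h ∈ P.toValuationSubring ∧
      evalAt P (Algebra.norm F h)
        = ∏ w ∈ P.fiber F', evalAt w h ^ (w.ramificationIndex F) := by
  have key := (fiber_main (F' := F') P).2.2 h (fun w => evalAt w h) hreg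
    (fun w hw => (evalAt_eq_iff w (hreg w hw) (evalAt w h)).mp rfl)
  have hNmem : Algebra.norm F h ∈ P.toValuationSubring := by
    rcases key with h0 | hpos
    · rw [h0]
      exact P.algebraMap_mem' _
    · have h1 := Fermat.Agent.S24.A564.SO.Place_mem_of_ord_nonneg P hpos.le
      have h2 := add_mem h1 (P.algebraMap_mem'
        (∏ w ∈ P.fiber F', evalAt w h ^ (w.ramificationIndex F)))
      rwa [sub_add_cancel] at h2
  exact ⟨hNmem, (evalAt_eq_iff P hNmem _).mpr key⟩

end Curve

end E5486

variable {K F : Type*} [Field K] [Field F] [Algebra K F]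
variable [IsAlgClosed K] [CharZero K] [IsCurveOver K F] [Algebra.EssFiniteType K F]

/-! ## E. Finite covers `F' / F` -/

section Cover

variable {F' : Type*} [Field F'] [Algebra K F'] [Algebra F F'] [IsScalarTower K F F']
  [Module.Finite F F']

/-- A finite extension of a function field is a function field. -/
theorem isCurveOver_of_finite (K F F' : Type*) [Field K] [Field F] [Algebra K F] [IsAlgClosed K]
    [CharZero K] [IsCurveOver K F] [Algebra.EssFiniteType K F] [Field F'] [Algebra K F']
    [Algebra F F'] [IsScalarTower K F F'] [Module.Finite F F'] : IsCurveOver K F' := by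
  obtain ⟨x, hx, hfin⟩ := isFF K F
  haveI := hfin
  haveI := E5486.finiteDimensional_cover (K := K) (F' := F') x
  exact E5486.isCurveOver_of_fd (algebraMap F F' x) (E5486.transcendental_algebraMap hx)

theorem essFiniteType_of_finite (K F F' : Type*) [Field K] [Field F] [Algebra K F]
    [IsAlgClosed K] [CharZero K] [IsCurveOver K F] [Algebra.EssFiniteType K F] [Field F']
    [Algebra K F'] [Algebra F F'] [IsScalarTower K F F'] [Module.Finite F F'] :
    Algebra.EssFiniteType K F' :=
  Algebra.EssFiniteType.comp K F F'

variable [IsCurveOver K F'] [Algebra.EssFiniteType K F']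

/-- Every place of `F` has a place of `F'` above it. -/
theorem fiber_nonempty (P : Place K F) : (P.fiber F').Nonempty := by
  by_contra hne
  rw [Finset.not_nonempty_iff_eq_empty] at hne
  have h := (E5486.fiber_main (F' := F') P).1
  rw [hne, Finset.sum_empty] at h
  have hpos : 0 < Module.finrank F F' := Module.finrank_pos
  omega

/-- `Σ e f = [F' : F]` (here all `f = 1`). -/
theorem sumRamificationInertia : SumRamificationInertia K F F' := by
  refine ⟨fun v => ?_⟩
  rw [← (E5486.fiber_main (F' := F') v).1]
  exact Finset.sum_congr rfl fun w _ => by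
    rw [E5486.inertiaDeg_eq_one_aux w, Nat.cast_one, mul_one]

theorem inertiaDeg_eq_one (w : Place K F') : w.inertiaDeg F = 1 :=
  E5486.inertiaDeg_eq_one_aux w

/-- `N_* div(h) = div(N h)`. -/
theorem pushforwardNormFormula : Divisor.PushforwardNormFormula K F F' := by
  classical
  intro f hf D hD v
  have hnorm := (E5486.fiber_main (F' := F') v).2.1
  rw [Divisor.pushforward_apply, ← hnorm f hf, ← Finset.sum_filter]
  have hsub : D.support.filter (fun w => w.restrict F = v) ⊆ v.fiber F' := by
    intro w hw'
    rw [Finset.mem_filter] at hw'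
    exact Place.mem_fiber.mpr hw'.2
  rw [← Finset.sum_subset hsub]
  · exact Finset.sum_congr rfl fun w _ => by
      rw [E5486.inertiaDeg_eq_one_aux w, Nat.cast_one, mul_one, hD w]
  · intro w hwT hwn
    rw [Finset.mem_filter, not_and] at hwn
    have h1 : w ∉ D.support := fun h => hwn h (Place.mem_fiber.mp hwT)
    rw [Finsupp.notMem_support_iff] at h1
    rw [← hD w, h1]

/-- `N(h)(P) = ∏_{w | P} h(w)^{e(w|P)}` for `h` a unit at all places above `P`. -/
theorem evalAt_norm (P : Place K F) {h : F'} (hh : ∀ w ∈ P.fiber F', w.ord h = 0) :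
    evalAt P (Algebra.norm F h) = ∏ w ∈ P.fiber F', evalAt w h ^ (w.ramificationIndex F) :=
  (E5486.evalAt_norm_of_mem P fun w hw =>
    Fermat.Agent.S24.A564.SO.Place_mem_of_ord_nonneg w (hh w hw).ge).2

/-- `(algebraMap f)(w) = f(w|_F)`. -/
theorem evalAt_algebraMap_cover (w : Place K F') (f : F) :
    evalAt w (algebraMap F F' f) = evalAt (w.restrict F) f := by
  by_cases hf : f ∈ (w.restrict F).toValuationSubring
  · have hf' : algebraMap F F' f ∈ w.toValuationSubring := w.mem_restrict_iff.mp hf
    obtain ⟨c, hc⟩ : ∃ c : K, evalAt (w.restrict F) f = c := ⟨_, rfl⟩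
    rw [hc, evalAt_eq_iff w hf']
    rcases (evalAt_eq_iff (w.restrict F) hf c).mp hc with h0 | hpos
    · left
      rw [h0, ← IsScalarTower.algebraMap_apply]
    · right
      have h1 : algebraMap F F' f - algebraMap K F' c
          = algebraMap F F' (f - algebraMap K F c) := by
        rw [map_sub, ← IsScalarTower.algebraMap_apply]
      rw [h1, w.ord_restrict]
      have he : 0 < (w.ramificationIndex F : ℤ) := by
        exact_mod_cast w.ramificationIndex_pos (F := F)
      exact mul_pos he hpos
  · have hf' : algebraMap F F' f ∉ w.toValuationSubring := fun h =>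
      hf (w.mem_restrict_iff.mpr h)
    unfold evalAt
    rw [dif_neg hf, dif_neg hf']

end Cover

end Fermat.Agent.S17.FND
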