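/-
S17 / FND — leaf D (values on divisors and Weil reciprocity), helper9686.

All 6 frozen statements of section D of `Skel.lean` (v0, sub-architect helper8457), verbatim:
`evalDiv_ne_zero`, `evalDiv_add`, `evalDiv_neg`, `evalDiv_mul`, `evalDiv_algebraMap`,
`weil_reciprocity`, with complete proofs.  Helpers live in `Fermat.Agent.S17.FND.D9686`.

Uses ONLY the frozen statements of leaves A, C, E (+ `Defs.lean`) and the landed S24 library
`Fermat/Agent/S24/A564/*` (zeros of a transcendental sum up to the degree, degree one places,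
Kaehler rank one).

Proof of `weil_reciprocity` (`g` non-constant, `L = K(g)`, `γ ∈ L` the generator, `N = N_{F/L}`):
* projection formulas for the cover `F / L` (leaf E: `evalAt_norm`, `pushforwardNormFormula`,
  `inertiaDeg_eq_one`, `evalAt_algebraMap_cover`):
    `f(div g) = N(f)(div γ)`   (`D9686.evalDiv_divF_algebraMap`),
    `g(div f) = γ(div N f)`    (`D9686.evalDiv_algebraMap_divF`);
* `L = K(γ)` is a curve in the Prelude sense (`D9686.isCurveOver_of_finite_adjoin`), its places
  are `γ = a` (`IsP1.pl a`) and `γ = ∞` (`IsP1.plInf`), `div (γ - a) = (a) - (∞)`;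
* reciprocity on the projective line against the coordinate `γ` (`D9686.IsP1.weil`): induction
  on the degree of the zero divisor of `φ`, peeling off Moebius factors `(γ - a) / (γ - b)`
  (`IsP1.weil_unit`), constants being the base case.
-/
import Fermat.Agent.S17.FND.A
import Fermat.Agent.S17.FND.C
import Fermat.Agent.S17.FND.E
import Fermat.Agent.S24.A564.RHAssembly

set_option autoImplicit false

noncomputable section

namespace Fermat.Agent.S17.FND

open AlgebraicCurve IntermediateField

variable {K F : Type*} [Field K] [Field F] [Algebra K F]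
variable [IsAlgClosed K] [CharZero K] [IsCurveOver K F] [Algebra.EssFiniteType K F]

namespace D9686

theorem evalAt_ne_zero (P : Place K F) {f : F} (hf : f ≠ 0) (h0 : P.ord f = 0) :
    evalAt P f ≠ 0 := by
  have hmem : f ∈ P.toValuationSubring := (mem_valuationSubring_iff P f).mpr h0.ge
  rw [ne_eq, evalAt_eq_zero_iff P hmem, not_or]
  exact ⟨hf, by omega⟩

theorem prod_zpow_eq {c : K} (hc : c ≠ 0) {ι : Type*} (s : Finset ι) (n : ι → ℤ) :
    ∏ i ∈ s, c ^ n i = c ^ ∑ i ∈ s, n i := by
  classical
  induction s using Finset.induction_on with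
  | empty => simp
  | insert a s ha ih => rw [Finset.prod_insert ha, Finset.sum_insert ha, ih, zpow_add₀ hc]

theorem degree_eq_sum (D : Divisor K F) : Divisor.degree D = ∑ P ∈ D.support, D P := by
  unfold Divisor.degree
  rw [Finsupp.liftAddHom_apply, Finsupp.sum]
  refine Finset.sum_congr rfl fun P _ => ?_
  simp [IsCurveOver.deg_eq_one_of_isAlgClosed P]


/-! ### Function fields in the `S24` sense are curves in the Prelude sense -/

/-- A field finite over `K(x)`, `x` transcendental, is a curve over `K`. -/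
theorem isCurveOver_of_finite_adjoin {E : Type*} [Field E] [Algebra K E] (x : E)
    (hx : Transcendental K x) [FiniteDimensional K⟮x⟯ E] : IsCurveOver K E := by
  classical
  have hdeg : ∀ v : Place K E, v.deg = 1 := fun v => Fermat.Agent.S24.A564.deg_eq_one x hx v
  refine { exists_divisor := ?_, finiteResidue := ?_, kaehler_free_rank_one := ?_ }
  · intro f hf
    obtain ⟨T, hT, hsum⟩ := Fermat.Agent.S24.A564.exists_finset_sum_ord_eq_zero x hx f
    refine ⟨Finsupp.onFinset T (fun v => v.ord f) (fun v hv => by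
      by_contra h
      exact hv (hT v h)), fun v => rfl, ?_⟩
    unfold Divisor.degree
    rw [Finsupp.liftAddHom_apply, Finsupp.onFinset_sum _ (fun v => by simp)]
    rw [← hsum]
    refine Finset.sum_congr rfl fun v _ => ?_
    simp [hdeg v]
  · intro v
    have h1 := hdeg v
    unfold Place.deg at h1
    exact Module.finite_of_finrank_pos (by omega)
  · exact ⟨inferInstance, Fermat.Agent.S24.A564.KR.finrank_kaehler x hx⟩

theorem finrank_of_eq_top {E : Type*} [Field E] [Algebra K E] (L : IntermediateField K E)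
    (h : L = ⊤) : Module.finrank L E = 1 :=
  IntermediateField.finrank_eq_one_iff_eq_top.mpr h

/-! ### The projective line: a function field generated by one element -/

section P1

variable {E : Type*} [Field E] [Algebra K E] [IsCurveOver K E] [Algebra.EssFiniteType K E]

/-- A transcendental generator has exactly one zero, and it is simple. -/
theorem exists_unique_zero {s : E} (hs : Transcendental K s) (htop : K⟮s⟯ = ⊤) :
    ∃ Q : Place K E, Q.ord s = 1 ∧ ∀ Q' : Place K E, 0 < Q'.ord s → Q' = Q := by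
  classical
  have hrank : Module.finrank K⟮s⟯ E = 1 := finrank_of_eq_top _ htop
  haveI : FiniteDimensional K⟮s⟯ E := Module.finite_of_finrank_pos (by omega)
  obtain ⟨S, hS, hsum⟩ := Fermat.Agent.S24.A564.SO.exists_finset_zeros_sum_ord s hs
  rw [hrank] at hsum
  have hone : ∀ v ∈ S, (1 : ℤ) ≤ v.ord s := fun v hv => (hS v).mp hv
  have hcard : (S.card : ℤ) ≤ 1 := by
    have h1 : ∑ _v ∈ S, (1 : ℤ) ≤ ∑ v ∈ S, v.ord s := Finset.sum_le_sum hone
    rw [Finset.sum_const, nsmul_eq_mul, mul_one] at h1
    push_cast at hsum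
    omega
  have hne : S.Nonempty := by
    rw [Finset.nonempty_iff_ne_empty]
    rintro rfl
    simp at hsum
  have hcard1 : S.card = 1 := by
    have := Finset.card_pos.mpr hne
    omega
  obtain ⟨Q, rfl⟩ := Finset.card_eq_one.mp hcard1
  rw [Finset.sum_singleton] at hsum
  refine ⟨Q, by exact_mod_cast hsum, fun Q' hQ' => ?_⟩
  exact Finset.mem_singleton.mp ((hS Q').mpr hQ')

/-- `γ` generates `E` over `K`: `E = K(γ)` is a rational function field. -/
structure IsP1 (γ : E) : Prop where
  tr : Transcendental K γ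
  top : K⟮γ⟯ = ⊤

namespace IsP1

variable {γ : E}

theorem ne_zero (h : IsP1 (K := K) γ) : γ ≠ 0 := fun h0 => h.tr (h0 ▸ isAlgebraic_zero)

theorem sub_ne_zero (h : IsP1 (K := K) γ) (a : K) : γ - algebraMap K E a ≠ 0 := fun h0 =>
  Fermat.Agent.S24.A564.transcendental_sub_const h.tr a (h0 ▸ isAlgebraic_zero)

theorem exists_pl (h : IsP1 (K := K) γ) (a : K) :
    ∃ Q : Place K E, Q.ord (γ - algebraMap K E a) = 1 ∧
      ∀ Q' : Place K E, 0 < Q'.ord (γ - algebraMap K E a) → Q' = Q :=
  exists_unique_zero (Fermat.Agent.S24.A564.transcendental_sub_const h.tr a)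
    ((Fermat.Agent.S24.A564.adjoin_simple_sub_const γ a).trans h.top)

theorem exists_plInf (h : IsP1 (K := K) γ) :
    ∃ Q : Place K E, Q.ord γ = -1 ∧ ∀ Q' : Place K E, Q'.ord γ < 0 → Q' = Q := by
  obtain ⟨Q, hQ, hQ'⟩ := exists_unique_zero (Fermat.Agent.S24.A564.transcendental_inv h.tr)
    ((Fermat.Agent.S24.A564.adjoin_simple_inv γ).trans h.top)
  refine ⟨Q, ?_, fun Q' h' => hQ' Q' ?_⟩
  · rw [Place.ord_inv] at hQ
    omega
  · rw [Place.ord_inv]
    omega

/-- The place `γ = a`. -/
def pl (h : IsP1 (K := K) γ) (a : K) : Place K E := (h.exists_pl a).choose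

/-- The place `γ = ∞`. -/
def plInf (h : IsP1 (K := K) γ) : Place K E := h.exists_plInf.choose

theorem ord_pl (h : IsP1 (K := K) γ) (a : K) : (h.pl a).ord (γ - algebraMap K E a) = 1 :=
  (h.exists_pl a).choose_spec.1

theorem eq_pl (h : IsP1 (K := K) γ) (a : K) {Q : Place K E}
    (hQ : 0 < Q.ord (γ - algebraMap K E a)) : Q = h.pl a :=
  (h.exists_pl a).choose_spec.2 Q hQ

theorem ord_plInf (h : IsP1 (K := K) γ) : h.plInf.ord γ = -1 := h.exists_plInf.choose_spec.1

theorem eq_plInf (h : IsP1 (K := K) γ) {Q : Place K E} (hQ : Q.ord γ < 0) : Q = h.plInf :=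
  h.exists_plInf.choose_spec.2 Q hQ

theorem ord_nonneg_of_sub_pos (Q : Place K E) (a : K)
    (hQ : 0 < Q.ord (γ - algebraMap K E a)) : 0 ≤ Q.ord γ :=
  Fermat.Agent.S24.A564.ord_nonneg_of_sub_const_pos Q γ a hQ

theorem pl_ne_plInf (h : IsP1 (K := K) γ) (a : K) : h.pl a ≠ h.plInf := by
  intro heq
  have h1 := ord_nonneg_of_sub_pos (h.pl a) a (by rw [h.ord_pl]; exact one_pos)
  rw [heq, h.ord_plInf] at h1
  omega

theorem ord_plInf_sub (h : IsP1 (K := K) γ) (a : K) :
    h.plInf.ord (γ - algebraMap K E a) = -1 := by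
  by_cases ha : a = 0
  · rw [ha, map_zero, sub_zero, h.ord_plInf]
  · have hne : -algebraMap K E a ≠ 0 := neg_ne_zero.mpr ((map_ne_zero _).mpr ha)
    have hlt : h.plInf.ord γ < h.plInf.ord (-algebraMap K E a) := by
      rw [Fermat.Agent.S24.A564.ord_neg, ord_algebraMap, h.ord_plInf]
      omega
    rw [sub_eq_add_neg, Fermat.Agent.S24.A564.LD.ord_add_eq_of_lt _ h.ne_zero hne hlt,
      h.ord_plInf]

theorem ord_sub_eq_zero (h : IsP1 (K := K) γ) (a : K) {P : Place K E} (h1 : P ≠ h.pl a)
    (h2 : P ≠ h.plInf) : P.ord (γ - algebraMap K E a) = 0 := by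
  have hγ : 0 ≤ P.ord γ := by
    by_contra hcon
    exact h2 (h.eq_plInf (not_le.mp hcon))
  have hnp : ¬ 0 < P.ord (γ - algebraMap K E a) := fun hcon => h1 (h.eq_pl a hcon)
  have hge : min (P.ord γ) (P.ord (-algebraMap K E a)) ≤ P.ord (γ + -algebraMap K E a) :=
    ord_add_ge P (by rw [← sub_eq_add_neg]; exact h.sub_ne_zero a)
  rw [Fermat.Agent.S24.A564.ord_neg, ord_algebraMap, ← sub_eq_add_neg] at hge
  have := min_eq_right hγ
  omega

theorem divF_sub (h : IsP1 (K := K) γ) (a : K) :
    (divF (γ - algebraMap K E a) : Divisor K E) = pt (h.pl a) - pt h.plInf := by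
  classical
  ext P
  rw [divF_apply, Finsupp.sub_apply, Finsupp.single_apply, Finsupp.single_apply]
  by_cases h1 : h.pl a = P
  · subst h1
    rw [if_pos rfl, if_neg (h.pl_ne_plInf a).symm, h.ord_pl]
    rfl
  · by_cases h2 : h.plInf = P
    · subst h2
      rw [if_neg h1, if_pos rfl, h.ord_plInf_sub a]
      rfl
    · rw [if_neg h1, if_neg h2, h.ord_sub_eq_zero a (Ne.symm h1) (Ne.symm h2)]
      rfl

theorem divF_gen (h : IsP1 (K := K) γ) :
    (divF γ : Divisor K E) = pt (h.pl 0) - pt h.plInf := by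
  have := h.divF_sub 0
  rwa [map_zero, sub_zero] at this

theorem evalAt_pl (h : IsP1 (K := K) γ) (a : K) : evalAt (h.pl a) γ = a := by
  have hpos : 0 < (h.pl a).ord (γ - algebraMap K E a) := by rw [h.ord_pl]; exact one_pos
  have hmem : γ ∈ (h.pl a).toValuationSubring :=
    (mem_valuationSubring_iff _ _).mpr (ord_nonneg_of_sub_pos _ a hpos)
  exact (evalAt_eq_iff _ hmem a).mpr (Or.inr hpos)

theorem pl_injective (h : IsP1 (K := K) γ) {a b : K} (hab : h.pl a = h.pl b) : a = b := by
  rw [← h.evalAt_pl a, hab, h.evalAt_pl b]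

theorem eq_pl_evalAt (h : IsP1 (K := K) γ) {P : Place K E} (hP : P ≠ h.plInf) :
    P = h.pl (evalAt P γ) := by
  have hγ : 0 ≤ P.ord γ := by
    by_contra hcon
    exact hP (h.eq_plInf (not_le.mp hcon))
  have hmem : γ ∈ P.toValuationSubring := (mem_valuationSubring_iff _ _).mpr hγ
  rcases (evalAt_eq_iff P hmem (evalAt P γ)).mp rfl with h1 | h1
  · exact absurd (h1 ▸ isAlgebraic_algebraMap (evalAt P γ)) h.tr
  · exact h.eq_pl _ h1

theorem mem_support_divF_gen (h : IsP1 (K := K) γ) (P : Place K E) :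
    P ∈ (divF γ : Divisor K E).support ↔ P = h.pl 0 ∨ P = h.plInf := by
  classical
  rw [h.divF_gen, Finsupp.mem_support_iff, Finsupp.sub_apply, Finsupp.single_apply,
    Finsupp.single_apply]
  have hne := h.pl_ne_plInf 0
  constructor
  · intro hP
    by_contra hcon
    rw [not_or] at hcon
    rw [if_neg (Ne.symm hcon.1), if_neg (Ne.symm hcon.2)] at hP
    exact hP rfl
  · rintro (rfl | rfl)
    · rw [if_pos rfl, if_neg hne.symm]
      decide
    · rw [if_neg hne, if_pos rfl]
      decide

end IsP1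

end P1

end D9686

/-! ## D. Values on divisors and Weil reciprocity -/

theorem evalDiv_ne_zero {f : F} {D : Divisor K F} (h : ∀ P ∈ D.support, P.ord f = 0)
    (hf : f ≠ 0) : evalDiv f D ≠ 0 := by
  unfold evalDiv
  rw [Finsupp.prod, Finset.prod_ne_zero_iff]
  intro P hP
  exact zpow_ne_zero _ (D9686.evalAt_ne_zero P hf (h P hP))

theorem evalDiv_add {f : F} (hf : f ≠ 0) {D E : Divisor K F}
    (hD : ∀ P ∈ D.support, P.ord f = 0) (hE : ∀ P ∈ E.support, P.ord f = 0) :
    evalDiv f (D + E) = evalDiv f D * evalDiv f E := by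
  classical
  unfold evalDiv
  refine Finsupp.prod_add_index (fun P _ => zpow_zero _) (fun P hP m n => ?_)
  have h0 : P.ord f = 0 := by
    rcases Finset.mem_union.mp hP with h | h
    · exact hD P h
    · exact hE P h
  exact zpow_add₀ (D9686.evalAt_ne_zero P hf h0) m n

theorem evalDiv_neg {f : F} (D : Divisor K F) : evalDiv f (-D) = (evalDiv f D)⁻¹ := by
  unfold evalDiv
  rw [Finsupp.prod, Finsupp.prod, Finsupp.support_neg, ← Finset.prod_inv_distrib]
  refine Finset.prod_congr rfl fun P _ => ?_
  rw [Finsupp.neg_apply, zpow_neg]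

theorem evalDiv_mul {f g : F} (hf : f ≠ 0) (hg : g ≠ 0) {D : Divisor K F}
    (hfD : ∀ P ∈ D.support, P.ord f = 0) (hgD : ∀ P ∈ D.support, P.ord g = 0) :
    evalDiv (f * g) D = evalDiv f D * evalDiv g D := by
  unfold evalDiv
  rw [Finsupp.prod, Finsupp.prod, Finsupp.prod, ← Finset.prod_mul_distrib]
  refine Finset.prod_congr rfl fun P hP => ?_
  rw [evalAt_mul P ((mem_valuationSubring_iff P f).mpr (hfD P hP).ge)
    ((mem_valuationSubring_iff P g).mpr (hgD P hP).ge), mul_zpow]

theorem evalDiv_algebraMap {c : K} (hc : c ≠ 0) (D : Divisor K F) :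
    evalDiv (algebraMap K F c) D = c ^ (Divisor.degree D) := by
  unfold evalDiv
  rw [Finsupp.prod, D9686.degree_eq_sum, ← D9686.prod_zpow_eq hc]
  refine Finset.prod_congr rfl fun P _ => ?_
  rw [evalAt_algebraMap]


namespace D9686

theorem evalDiv_pt (f : F) (P : Place K F) : evalDiv f (pt P) = evalAt P f := by
  unfold evalDiv
  rw [Finsupp.prod_single_index (zpow_zero _), zpow_one]

theorem support_pt (P : Place K F) : (pt P : Divisor K F).support = {P} :=
  Finsupp.support_single _ one_ne_zero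

theorem evalDiv_pt_sub_pt {f : F} (hf : f ≠ 0) {P P' : Place K F} (h1 : P.ord f = 0)
    (h2 : P'.ord f = 0) : evalDiv f (pt P - pt P') = evalAt P f * (evalAt P' f)⁻¹ := by
  rw [sub_eq_add_neg, evalDiv_add hf, evalDiv_neg, evalDiv_pt, evalDiv_pt]
  · intro Q hQ
    rw [support_pt, Finset.mem_singleton] at hQ
    rw [hQ]
    exact h1
  · intro Q hQ
    rw [Finsupp.support_neg, support_pt, Finset.mem_singleton] at hQ
    rw [hQ]
    exact h2

/-- Reciprocity against a constant. -/
theorem weil_const (γ : F) {φ : F} (hφ : φ ≠ 0) (h0 : (divF φ : Divisor K F) = 0) :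
    evalDiv φ (divF γ : Divisor K F) = evalDiv γ (divF φ : Divisor K F) := by
  obtain ⟨c, rfl⟩ := (divF_eq_zero_iff hφ).mp h0
  have hc : c ≠ 0 := fun hc => hφ (by rw [hc, map_zero])
  rw [evalDiv_algebraMap hc, degree_divF, zpow_zero, h0]
  simp [evalDiv]

section P1

variable {E : Type*} [Field E] [Algebra K E] [IsCurveOver K E] [Algebra.EssFiniteType K E]
  {γ : E}

theorem IsP1.ord_pl_sub (h : IsP1 (K := K) γ) {a b : K} (hab : a ≠ b) :
    (h.pl a).ord (γ - algebraMap K E b) = 0 :=
  h.ord_sub_eq_zero b (fun heq => hab (h.pl_injective heq)) (h.pl_ne_plInf a)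

theorem IsP1.ord_gen_pl (h : IsP1 (K := K) γ) {a : K} (ha : a ≠ 0) : (h.pl a).ord γ = 0 := by
  have := h.ord_pl_sub (a := a) (b := 0) ha
  rwa [map_zero, sub_zero] at this

/-- Reciprocity for the Möbius function `(γ - a) / (γ - b)` against `γ`. -/
theorem IsP1.weil_unit (h : IsP1 (K := K) γ) {a b : K} (ha : a ≠ 0) (hb : b ≠ 0) (hab : a ≠ b) :
    evalDiv ((γ - algebraMap K E a) * (γ - algebraMap K E b)⁻¹) (divF γ : Divisor K E) =
      evalDiv γ (divF ((γ - algebraMap K E a) * (γ - algebraMap K E b)⁻¹) : Divisor K E) := by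
  have hA0 : γ - algebraMap K E a ≠ 0 := h.sub_ne_zero a
  have hB0 : γ - algebraMap K E b ≠ 0 := h.sub_ne_zero b
  have hBi0 : (γ - algebraMap K E b)⁻¹ ≠ 0 := inv_ne_zero hB0
  have hu0 : (γ - algebraMap K E a) * (γ - algebraMap K E b)⁻¹ ≠ 0 := mul_ne_zero hA0 hBi0
  have hdivu : (divF ((γ - algebraMap K E a) * (γ - algebraMap K E b)⁻¹) : Divisor K E)
      = pt (h.pl a) - pt (h.pl b) := by
    rw [divF_mul hA0 hBi0, divF_inv, h.divF_sub a, h.divF_sub b]
    abel
  -- orders at `γ = 0` and `γ = ∞`
  have hA_0 : (h.pl 0).ord (γ - algebraMap K E a) = 0 := h.ord_pl_sub (Ne.symm ha)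
  have hB_0 : (h.pl 0).ord (γ - algebraMap K E b) = 0 := h.ord_pl_sub (Ne.symm hb)
  have hu_0 : (h.pl 0).ord ((γ - algebraMap K E a) * (γ - algebraMap K E b)⁻¹) = 0 := by
    rw [Place.ord_mul _ hA0 hBi0, Place.ord_inv, hA_0, hB_0]
    rfl
  have hA_inf : h.plInf.ord (γ - algebraMap K E a) = -1 := h.ord_plInf_sub a
  have hB_inf : h.plInf.ord (γ - algebraMap K E b) = -1 := h.ord_plInf_sub b
  have hu_inf : h.plInf.ord ((γ - algebraMap K E a) * (γ - algebraMap K E b)⁻¹) = 0 := by
    rw [Place.ord_mul _ hA0 hBi0, Place.ord_inv, hA_inf, hB_inf]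
    rfl
  -- values
  have hγ0 : (h.pl 0).ord γ = 1 := by
    have := h.ord_pl 0
    rwa [map_zero, sub_zero] at this
  have hmemA : γ - algebraMap K E a ∈ (h.pl 0).toValuationSubring :=
    (mem_valuationSubring_iff _ _).mpr hA_0.ge
  have hmemBi : (γ - algebraMap K E b)⁻¹ ∈ (h.pl 0).toValuationSubring :=
    (mem_valuationSubring_iff _ _).mpr (by rw [Place.ord_inv, hB_0]; rfl)
  have hmemB : γ - algebraMap K E b ∈ (h.pl 0).toValuationSubring :=
    (mem_valuationSubring_iff _ _).mpr hB_0.ge
  have hval : ∀ c : K, γ - algebraMap K E c ∈ (h.pl 0).toValuationSubring →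
      evalAt (h.pl 0) (γ - algebraMap K E c) = -c := by
    intro c hmem
    refine (evalAt_eq_iff _ hmem (-c)).mpr (Or.inr ?_)
    have : γ - algebraMap K E c - algebraMap K E (-c) = γ := by
      rw [map_neg]
      ring
    rw [this, hγ0]
    exact one_pos
  have hv0 : evalAt (h.pl 0) ((γ - algebraMap K E a) * (γ - algebraMap K E b)⁻¹) = a * b⁻¹ := by
    rw [evalAt_mul _ hmemA hmemBi, evalAt_inv _ hB0 hB_0, hval a hmemA, hval b hmemB, inv_neg,
      neg_mul_neg]
  have hvinf : evalAt h.plInf ((γ - algebraMap K E a) * (γ - algebraMap K E b)⁻¹) = 1 := by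
    have hmem : (γ - algebraMap K E a) * (γ - algebraMap K E b)⁻¹ ∈ h.plInf.toValuationSubring :=
      (mem_valuationSubring_iff _ _).mpr hu_inf.ge
    refine (evalAt_eq_iff _ hmem 1).mpr (Or.inr ?_)
    have hc : algebraMap K E (b - a) ≠ 0 := (map_ne_zero _).mpr (_root_.sub_ne_zero.mpr (Ne.symm hab))
    have hdiff : (γ - algebraMap K E a) * (γ - algebraMap K E b)⁻¹ - algebraMap K E 1
        = algebraMap K E (b - a) * (γ - algebraMap K E b)⁻¹ := by
      have h1 : algebraMap K E (b - a) = (γ - algebraMap K E a) - (γ - algebraMap K E b) := by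
        rw [map_sub]
        ring
      rw [h1, sub_mul (γ - algebraMap K E a) (γ - algebraMap K E b), mul_inv_cancel₀ hB0, map_one]
    rw [hdiff, Place.ord_mul _ hc hBi0, ord_algebraMap, Place.ord_inv, hB_inf]
    norm_num
  rw [hdivu, h.divF_gen, evalDiv_pt_sub_pt hu0 hu_0 hu_inf,
    evalDiv_pt_sub_pt h.ne_zero (h.ord_gen_pl ha) (h.ord_gen_pl hb), hv0, hvinf, h.evalAt_pl,
    h.evalAt_pl, inv_one, mul_one]

/-- Weil reciprocity on the projective line, against the coordinate `γ`. -/
theorem IsP1.weil_aux (h : IsP1 (K := K) γ) : ∀ (n : ℕ) (φ : E), φ ≠ 0 →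
    Disjoint (divF γ : Divisor K E).support (divF φ : Divisor K E).support →
    (∑ P ∈ (divF φ : Divisor K E).support, ((divF φ : Divisor K E) P).toNat) ≤ n →
    evalDiv φ (divF γ : Divisor K E) = evalDiv γ (divF φ : Divisor K E) := by
  classical
  intro n
  induction n with
  | zero =>
    intro φ hφ _ hm
    refine weil_const γ hφ ?_
    have hle : ∀ P, (divF φ : Divisor K E) P ≤ 0 := by
      intro P
      by_cases hP : P ∈ (divF φ : Divisor K E).support
      · have := Finset.sum_eq_zero_iff.mp (Nat.le_zero.mp hm) P hP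
        omega
      · rw [Finsupp.notMem_support_iff.mp hP]
    have hnn : 0 ≤ -(divF φ : Divisor K E) := by
      intro P
      rw [Finsupp.neg_apply]
      have := hle P
      simp only [Finsupp.coe_zero, Pi.zero_apply]
      omega
    exact neg_eq_zero.mp
      (eq_zero_of_nonneg_of_degree hnn (by rw [map_neg, degree_divF, neg_zero]))
  | succ n ih =>
    intro φ hφ hdisj hm
    by_cases h0 : (divF φ : Divisor K E) = 0
    · exact weil_const γ hφ h0
    obtain ⟨P₁, hP₁⟩ : ∃ P, 0 < (divF φ : Divisor K E) P := by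
      by_contra hcon
      have hnn : 0 ≤ -(divF φ : Divisor K E) := by
        intro P
        rw [Finsupp.neg_apply]
        have := not_lt.mp (not_exists.mp hcon P)
        simp only [Finsupp.coe_zero, Pi.zero_apply]
        omega
      exact h0 (neg_eq_zero.mp
        (eq_zero_of_nonneg_of_degree hnn (by rw [map_neg, degree_divF, neg_zero])))
    obtain ⟨P₂, hP₂⟩ : ∃ P, (divF φ : Divisor K E) P < 0 := by
      by_contra hcon
      exact h0 (eq_zero_of_nonneg_of_degree (fun P => not_lt.mp (not_exists.mp hcon P))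
        (degree_divF φ))
    have hP₁s : P₁ ∈ (divF φ : Divisor K E).support := Finsupp.mem_support_iff.mpr hP₁.ne'
    have hP₂s : P₂ ∈ (divF φ : Divisor K E).support := Finsupp.mem_support_iff.mpr hP₂.ne
    have hP₁γ : P₁ ∉ (divF γ : Divisor K E).support := Finset.disjoint_right.mp hdisj hP₁s
    have hP₂γ : P₂ ∉ (divF γ : Divisor K E).support := Finset.disjoint_right.mp hdisj hP₂s
    rw [h.mem_support_divF_gen, not_or] at hP₁γ hP₂γ
    have e₁ : P₁ = h.pl (evalAt P₁ γ) := h.eq_pl_evalAt hP₁γ.2
    have e₂ : P₂ = h.pl (evalAt P₂ γ) := h.eq_pl_evalAt hP₂γ.2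
    have hP₁₂ : P₁ ≠ P₂ := by
      rintro rfl
      omega
    generalize evalAt P₁ γ = a at e₁
    generalize evalAt P₂ γ = b at e₂
    have ha0 : a ≠ 0 := fun h0 => hP₁γ.1 (by rw [e₁, h0])
    have hb0 : b ≠ 0 := fun h0 => hP₂γ.1 (by rw [e₂, h0])
    have hab : a ≠ b := fun hab => hP₁₂ (by rw [e₁, e₂, hab])
    have hA0 : γ - algebraMap K E a ≠ 0 := h.sub_ne_zero a
    have hB0 : γ - algebraMap K E b ≠ 0 := h.sub_ne_zero b
    have hBi0 : (γ - algebraMap K E b)⁻¹ ≠ 0 := inv_ne_zero hB0
    set u : E := (γ - algebraMap K E a) * (γ - algebraMap K E b)⁻¹ with hu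
    have hu0 : u ≠ 0 := mul_ne_zero hA0 hBi0
    have hdivu : (divF u : Divisor K E) = pt P₁ - pt P₂ := by
      rw [hu, divF_mul hA0 hBi0, divF_inv, h.divF_sub a, h.divF_sub b, e₁, e₂]
      abel
    set φ' : E := φ * u⁻¹ with hφ'def
    have hφ' : φ' ≠ 0 := mul_ne_zero hφ (inv_ne_zero hu0)
    have hφeq : φ = φ' * u := by
      rw [hφ'def, mul_assoc, inv_mul_cancel₀ hu0, mul_one]
    have hdivφ' : (divF φ' : Divisor K E) = divF φ - (pt P₁ - pt P₂) := by
      rw [hφ'def, divF_mul hφ (inv_ne_zero hu0), divF_inv, hdivu]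
      abel
    have happ : ∀ P, (divF φ' : Divisor K E) P
        = (divF φ : Divisor K E) P - ((if P₁ = P then 1 else 0) - (if P₂ = P then 1 else 0)) := by
      intro P
      rw [hdivφ', Finsupp.sub_apply, Finsupp.sub_apply, Finsupp.single_apply,
        Finsupp.single_apply]
    have hsub : (divF φ' : Divisor K E).support ⊆ (divF φ : Divisor K E).support := by
      intro P hP
      rw [Finsupp.mem_support_iff] at hP ⊢
      intro hzero
      apply hP
      have h1 : P₁ ≠ P := by
        rintro rfl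
        omega
      have h2 : P₂ ≠ P := by
        rintro rfl
        omega
      rw [happ, hzero, if_neg h1, if_neg h2]
      rfl
    have hdisj' : Disjoint (divF γ : Divisor K E).support (divF φ' : Divisor K E).support :=
      Finset.disjoint_of_subset_right hsub hdisj
    have hm' : ∑ P ∈ (divF φ' : Divisor K E).support, ((divF φ' : Divisor K E) P).toNat ≤ n := by
      have hlt : ∑ P ∈ (divF φ : Divisor K E).support, ((divF φ' : Divisor K E) P).toNat
          < ∑ P ∈ (divF φ : Divisor K E).support, ((divF φ : Divisor K E) P).toNat := by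
        refine Finset.sum_lt_sum (fun P _ => ?_) ⟨P₁, hP₁s, ?_⟩
        · rw [happ]
          by_cases h1 : P₁ = P
          · subst h1
            rw [if_pos rfl, if_neg (Ne.symm hP₁₂)]
            omega
          · by_cases h2 : P₂ = P
            · subst h2
              rw [if_neg h1, if_pos rfl]
              omega
            · rw [if_neg h1, if_neg h2]
              omega
        · rw [happ, if_pos rfl, if_neg (Ne.symm hP₁₂)]
          omega
      have heq : ∑ P ∈ (divF φ' : Divisor K E).support, ((divF φ' : Divisor K E) P).toNat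
          = ∑ P ∈ (divF φ : Divisor K E).support, ((divF φ' : Divisor K E) P).toNat :=
        Finset.sum_subset hsub (fun P _ hP => by
          rw [Finsupp.notMem_support_iff.mp hP]
          rfl)
      omega
    have ih' := ih φ' hφ' hdisj' hm'
    have hwu := h.weil_unit ha0 hb0 hab
    rw [← hu] at hwu
    -- units
    have hord' : ∀ P ∈ (divF γ : Divisor K E).support, P.ord φ' = 0 := by
      intro P hP
      rw [← divF_apply (K := K)]
      exact Finsupp.notMem_support_iff.mp (Finset.disjoint_left.mp hdisj' hP)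
    have hordu : ∀ P ∈ (divF γ : Divisor K E).support, P.ord u = 0 := by
      intro P hP
      have h1 : P₁ ≠ P := fun heq => Finset.disjoint_left.mp hdisj hP (heq ▸ hP₁s)
      have h2 : P₂ ≠ P := fun heq => Finset.disjoint_left.mp hdisj hP (heq ▸ hP₂s)
      rw [← divF_apply (K := K), hdivu, Finsupp.sub_apply, Finsupp.single_apply,
        Finsupp.single_apply, if_neg h1, if_neg h2]
      rfl
    have hγ' : ∀ P ∈ (divF φ' : Divisor K E).support, P.ord γ = 0 := by
      intro P hP
      rw [← divF_apply (K := K)]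
      exact Finsupp.notMem_support_iff.mp (Finset.disjoint_right.mp hdisj' hP)
    have hγu : ∀ P ∈ (divF u : Divisor K E).support, P.ord γ = 0 := by
      intro P hP
      rw [← divF_apply (K := K)]
      refine Finsupp.notMem_support_iff.mp (Finset.disjoint_right.mp hdisj ?_)
      rw [hdivu, Finsupp.mem_support_iff, Finsupp.sub_apply, Finsupp.single_apply,
        Finsupp.single_apply] at hP
      by_cases h1 : P₁ = P
      · exact h1 ▸ hP₁s
      · by_cases h2 : P₂ = P
        · exact h2 ▸ hP₂s
        · rw [if_neg h1, if_neg h2] at hP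
          exact absurd rfl hP
    rw [hφeq, evalDiv_mul hφ' hu0 hord' hordu, divF_mul hφ' hu0,
      evalDiv_add h.ne_zero hγ' hγu, ih', hwu]

theorem IsP1.weil (h : IsP1 (K := K) γ) {φ : E} (hφ : φ ≠ 0)
    (hdisj : Disjoint (divF γ : Divisor K E).support (divF φ : Divisor K E).support) :
    evalDiv φ (divF γ : Divisor K E) = evalDiv γ (divF φ : Divisor K E) :=
  h.weil_aux _ φ hφ hdisj le_rfl

end P1

end D9686


namespace D9686

section Cover

variable {F' : Type*} [Field F'] [Algebra K F'] [Algebra F F'] [IsScalarTower K F F']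
  [Module.Finite F F'] [IsCurveOver K F'] [Algebra.EssFiniteType K F']

/-- Projection formula `f(π^* div γ) = N(f)(div γ)`. -/
theorem evalDiv_divF_algebraMap {f : F'} (γ : F)
    (hunit : ∀ w ∈ (divF (algebraMap F F' γ) : Divisor K F').support, w.ord f = 0) :
    evalDiv f (divF (algebraMap F F' γ) : Divisor K F')
      = evalDiv (Algebra.norm F f) (divF γ : Divisor K F) := by
  classical
  have hord : ∀ w : Place K F', w.ord (algebraMap F F' γ)
      = (w.ramificationIndex F : ℤ) * (w.restrict F).ord γ := fun w => w.ord_restrict γ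
  have hsupp : (divF (algebraMap F F' γ) : Divisor K F').support
      = (divF γ : Divisor K F).support.biUnion (fun Q => Q.fiber F') := by
    ext w
    simp only [Finsupp.mem_support_iff, divF_apply, Finset.mem_biUnion, Place.mem_fiber]
    constructor
    · intro hw
      exact ⟨w.restrict F, fun h0 => hw (by rw [hord, h0, mul_zero]), rfl⟩
    · rintro ⟨Q, hQ, rfl⟩
      rw [hord]
      have hpos := w.ramificationIndex_pos (F := F)
      exact mul_ne_zero (by omega) hQ
  have hdisj : ((divF γ : Divisor K F).support : Set (Place K F)).PairwiseDisjoint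
      (fun Q => Q.fiber F') := by
    intro Q _ Q' _ hQQ'
    rw [Function.onFun, Finset.disjoint_left]
    intro w hw hw'
    exact hQQ' ((Place.mem_fiber.mp hw).symm.trans (Place.mem_fiber.mp hw'))
  have hunit' : ∀ Q ∈ (divF γ : Divisor K F).support, ∀ w ∈ Q.fiber F', w.ord f = 0 := by
    intro Q hQ w hw
    exact hunit w (by rw [hsupp]; exact Finset.mem_biUnion.mpr ⟨Q, hQ, hw⟩)
  unfold evalDiv
  rw [Finsupp.prod, hsupp, Finset.prod_biUnion hdisj, Finsupp.prod]
  refine Finset.prod_congr rfl fun Q hQ => ?_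
  rw [divF_apply, evalAt_norm Q (hunit' Q hQ), ← Finset.prod_zpow]
  refine Finset.prod_congr rfl fun w hw => ?_
  rw [divF_apply, hord, Place.mem_fiber.mp hw, zpow_mul, zpow_natCast]

/-- Projection formula `(π^* γ)(div f) = γ(div N f)`. -/
theorem evalDiv_algebraMap_divF {f : F'} (hf : f ≠ 0) {γ : F} (hγ : γ ≠ 0)
    (hunit : ∀ w ∈ (divF f : Divisor K F').support, w.ord (algebraMap F F' γ) = 0) :
    evalDiv (algebraMap F F' γ) (divF f : Divisor K F')
      = evalDiv γ (divF (Algebra.norm F f) : Divisor K F) := by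
  classical
  have hnorm : ∀ Q : Place K F, Q.ord (Algebra.norm F f)
      = ∑ w ∈ (divF f : Divisor K F').support.filter (fun w => w.restrict F = Q), w.ord f := by
    intro Q
    have h1 := pushforwardNormFormula (K := K) (F := F) (F' := F') f hf (divF f)
      (fun w => divF_apply f w) Q
    rw [← h1, Divisor.pushforward_apply, Finset.sum_filter]
    refine Finset.sum_congr rfl fun w _ => ?_
    rw [inertiaDeg_eq_one, divF_apply, Nat.cast_one, mul_one]
  have hsub : (divF (Algebra.norm F f) : Divisor K F).support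
      ⊆ (divF f : Divisor K F').support.image (fun w => w.restrict F) := by
    intro Q hQ
    rw [Finsupp.mem_support_iff, divF_apply, hnorm] at hQ
    obtain ⟨w, hw, -⟩ := Finset.exists_ne_zero_of_sum_ne_zero hQ
    rw [Finset.mem_filter] at hw
    exact Finset.mem_image.mpr ⟨w, hw.1, hw.2⟩
  have hg0 : algebraMap F F' γ ≠ 0 := (map_ne_zero _).mpr hγ
  unfold evalDiv
  rw [Finsupp.prod, Finsupp.prod,
    Finset.prod_subset hsub (fun Q _ hQ => by
      rw [Finsupp.notMem_support_iff.mp hQ, zpow_zero]),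
    ← Finset.prod_fiberwise_of_maps_to (g := fun w => w.restrict F)
      (t := (divF f : Divisor K F').support.image (fun w => w.restrict F))
      (fun w hw => Finset.mem_image_of_mem _ hw)]
  refine Finset.prod_congr rfl fun Q hQ => ?_
  rw [divF_apply, hnorm Q]
  obtain ⟨w0, hw0S, rfl⟩ := Finset.mem_image.mp hQ
  have hne : evalAt (w0.restrict F) γ ≠ 0 := by
    rw [← evalAt_algebraMap_cover]
    exact evalAt_ne_zero w0 hg0 (hunit w0 hw0S)
  rw [← prod_zpow_eq hne]
  refine Finset.prod_congr rfl fun w hw => ?_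
  rw [Finset.mem_filter] at hw
  rw [divF_apply, evalAt_algebraMap_cover, hw.2]

/-- The norm of a function prime to `π^* div γ` is prime to `div γ`. -/
theorem ord_norm_eq_zero {f : F'} (hf : f ≠ 0) (Q : Place K F)
    (hunit : ∀ w : Place K F', w.restrict F = Q → w.ord f = 0) :
    Q.ord (Algebra.norm F f) = 0 := by
  classical
  have h1 := pushforwardNormFormula (K := K) (F := F) (F' := F') f hf (divF f)
    (fun w => divF_apply f w) Q
  rw [← h1, Divisor.pushforward_apply]
  refine Finset.sum_eq_zero fun w _ => ?_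
  split_ifs with hw
  · rw [divF_apply, hunit w hw, zero_mul]
  · rfl

end Cover

/-- The generator of `K(g)` is a coordinate of the projective line. -/
theorem isP1_gen_aux {g : F} (hg : Transcendental K g) :
    Transcendental K (AdjoinSimple.gen K g) ∧
      (K⟮AdjoinSimple.gen K g⟯ : IntermediateField K K⟮g⟯) = ⊤ := by
  constructor
  · intro halg
    apply hg
    have := halg.algebraMap (A := F)
    rwa [AdjoinSimple.algebraMap_gen] at this
  · apply IntermediateField.map_injective K⟮g⟯.val
    rw [IntermediateField.adjoin_map, Set.image_singleton]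
    have h1 : (K⟮g⟯.val) (AdjoinSimple.gen K g) = g := AdjoinSimple.coe_gen K g
    rw [h1, ← AlgHom.fieldRange_eq_map, IntermediateField.fieldRange_val]

end D9686

/-- Weil reciprocity: `f(div g) = g(div f)` for functions with disjoint divisors. -/
theorem weil_reciprocity {f g : F} (hf : f ≠ 0) (hg : g ≠ 0)
    (h : Disjoint (divF f : Divisor K F).support (divF g : Divisor K F).support) :
    evalDiv f (divF g : Divisor K F) = evalDiv g (divF f : Divisor K F) := by
  classical
  by_cases hgc : (divF g : Divisor K F) = 0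
  · exact (D9686.weil_const f hg hgc).symm
  -- `g` is transcendental
  have hgt : Transcendental K g := by
    intro halg
    apply hgc
    ext v
    rw [divF_apply]
    exact Fermat.Agent.S24.A564.KR.ord_eq_zero_of_isAlgebraic v halg
  haveI : FiniteDimensional K⟮g⟯ F := finite_of_transcendental hgt
  obtain ⟨hγt, hγtop⟩ := D9686.isP1_gen_aux (K := K) hgt
  set γ : K⟮g⟯ := AdjoinSimple.gen K g with hγ
  haveI : FiniteDimensional K⟮γ⟯ K⟮g⟯ :=
    Module.finite_of_finrank_pos (by rw [D9686.finrank_of_eq_top _ hγtop]; exact one_pos)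
  haveI : IsCurveOver K K⟮g⟯ := D9686.isCurveOver_of_finite_adjoin γ hγt
  haveI : Algebra.EssFiniteType K K⟮g⟯ := Fermat.Agent.S24.A564.essFiniteType_of_finite γ
  have hP1 : D9686.IsP1 (K := K) γ := ⟨hγt, hγtop⟩
  have hgγ : algebraMap K⟮g⟯ F γ = g := AdjoinSimple.algebraMap_gen K g
  have hγ0 : γ ≠ 0 := hP1.ne_zero
  -- `f` is a unit on the support of `div g`, and conversely
  have hfu : ∀ w ∈ (divF g : Divisor K F).support, w.ord f = 0 := by
    intro w hw
    rw [← divF_apply (K := K)]
    exact Finsupp.notMem_support_iff.mp (Finset.disjoint_right.mp h hw)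
  have hgu : ∀ w ∈ (divF f : Divisor K F).support, w.ord g = 0 := by
    intro w hw
    rw [← divF_apply (K := K)]
    exact Finsupp.notMem_support_iff.mp (Finset.disjoint_left.mp h hw)
  have e1 : evalDiv f (divF g : Divisor K F)
      = evalDiv (Algebra.norm K⟮g⟯ f) (divF γ : Divisor K K⟮g⟯) := by
    have := D9686.evalDiv_divF_algebraMap (K := K) (F := K⟮g⟯) (F' := F) (f := f) γ
      (by rw [hgγ]; exact hfu)
    rwa [hgγ] at this
  have e2 : evalDiv g (divF f : Divisor K F)
      = evalDiv γ (divF (Algebra.norm K⟮g⟯ f) : Divisor K K⟮g⟯) := by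
    have := D9686.evalDiv_algebraMap_divF (K := K) (F := K⟮g⟯) (F' := F) hf hγ0
      (by rw [hgγ]; exact hgu)
    rwa [hgγ] at this
  have hN0 : Algebra.norm K⟮g⟯ f ≠ 0 := Algebra.norm_ne_zero_iff.mpr hf
  have hdisj : Disjoint (divF γ : Divisor K K⟮g⟯).support
      (divF (Algebra.norm K⟮g⟯ f) : Divisor K K⟮g⟯).support := by
    rw [Finset.disjoint_left]
    intro Q hQ hQ'
    rw [Finsupp.mem_support_iff, divF_apply] at hQ hQ'
    apply hQ'
    refine D9686.ord_norm_eq_zero (K := K) (F := K⟮g⟯) (F' := F) hf Q (fun w hw => ?_)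
    apply hfu w
    rw [Finsupp.mem_support_iff, divF_apply, ← hgγ, w.ord_restrict γ, hw]
    have hpos := w.ramificationIndex_pos (F := K⟮g⟯)
    exact mul_ne_zero (by omega) hQ
  rw [e1, e2]
  exact hP1.weil hN0 hdisj

end Fermat.Agent.S17.FND
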