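/-
S17 / FND leaf K, part 1 (helper8457): finiteness of ramification and `HasCanonicalDivisor`.

For `x` transcendental, all but finitely many places `v` satisfy `0 ≤ ord_v x` and
`ord_v (x - x(v)) = 1`.  Proof without polynomials: `δ = d/dx` is a `K`-derivation of `F`;
`F = K(x, y)`, `δ y = r / s` with `r, s ∈ K[x, y]`, so `R = K[x, y, 1/s]` is `δ`-stable; at a place
`v` with `R ⊆ O_v` the landed local rule gives `ord_v g = e + ord_v (δ g)` for `g ∈ R` vanishing at
`v` (`e = ord_v (x - c)`), hence `e ∣ ord_v g` for all `g ∈ R`, hence `e ∣ 1`.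
-/
import Fermat.Agent.S17.FND.A
import Fermat.Agent.S24.A564.RHAssembly
import Fermat.Prelude.Def_AlgebraicCurve_CanonicalDivisor

set_option autoImplicit false

noncomputable section

namespace Fermat.Agent.S17.FND.K8457

open AlgebraicCurve KaehlerDifferential IntermediateField

variable {K F : Type*} [Field K] [Field F] [Algebra K F]

/-- `dg/dx` (junk `0` if `D g` is not a multiple of `D x`). -/
def dd (K : Type*) {F : Type*} [Field K] [Field F] [Algebra K F] (x g : F) : F :=
  open Classical in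
  if h : ∃ f : F, D K F g = f • D K F x then h.choose else 0

section deriv

variable [CharZero K] (x : F) (hx : Transcendental K x) [FiniteDimensional K⟮x⟯ F]

theorem dd_spec (g : F) : D K F g = dd K x g • D K F x := by
  have h : ∃ f : F, D K F g = f • D K F x := S24.A564.KR.exists_eq_smul_D (K := K) x (D K F g)
  unfold dd
  rw [dif_pos h]
  exact h.choose_spec

include hx in
theorem dd_unique {g f : F} (h : D K F g = f • D K F x) : dd K x g = f := by
  have h1 := dd_spec (K := K) x g
  rw [h] at h1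
  have hD : D K F x ≠ 0 := S24.A564.KR.D_ne_zero x hx
  exact (smul_left_injective F hD h1).symm

include hx in
theorem dd_add (g₁ g₂ : F) : dd K x (g₁ + g₂) = dd K x g₁ + dd K x g₂ := by
  apply dd_unique x hx
  rw [map_add, dd_spec (K := K) x g₁, dd_spec (K := K) x g₂, add_smul]

include hx in
theorem dd_mul (g₁ g₂ : F) : dd K x (g₁ * g₂) = g₁ * dd K x g₂ + g₂ * dd K x g₁ := by
  apply dd_unique x hx
  rw [Derivation.leibniz, dd_spec (K := K) x g₁, dd_spec (K := K) x g₂, add_smul, smul_smul,
    smul_smul]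

include hx in
theorem dd_algebraMap (c : K) : dd K x (algebraMap K F c) = 0 := by
  apply dd_unique x hx
  rw [Derivation.map_algebraMap, zero_smul]

include hx in
theorem dd_self : dd K x x = 1 := by
  apply dd_unique x hx
  rw [one_smul]

include hx in
theorem dd_inv (s : F) : dd K x s⁻¹ = -(s⁻¹ ^ 2) * dd K x s := by
  apply dd_unique x hx
  rw [Derivation.leibniz_inv, dd_spec (K := K) x s, smul_smul]

include hx in
/-- A subalgebra generated by a set on which `δ` takes values in the subalgebra is `δ`-stable. -/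
theorem dd_mem_adjoin {S : Set F} {R : Subalgebra K F} (hSR : Algebra.adjoin K S ≤ R)
    (hS : ∀ g ∈ S, dd K x g ∈ R) : ∀ g ∈ Algebra.adjoin K S, dd K x g ∈ R := by
  intro g hg
  induction hg using Algebra.adjoin_induction with
  | mem g hg => exact hS g hg
  | algebraMap c => rw [dd_algebraMap x hx]; exact zero_mem _
  | add g₁ g₂ h₁ h₂ ih₁ ih₂ => rw [dd_add x hx]; exact add_mem ih₁ ih₂
  | mul g₁ g₂ h₁ h₂ ih₁ ih₂ =>
    rw [dd_mul x hx]
    exact add_mem (mul_mem (hSR h₁) ih₂) (mul_mem (hSR h₂) ih₁)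

end deriv

section local_

variable [IsAlgClosed K] [CharZero K] (x : F) (hx : Transcendental K x) [FiniteDimensional K⟮x⟯ F]

include hx in
/-- The local rule: if `g - d` and `x - c` vanish at `v`, then
`ord_v (g - d) = ord_v (x - c) + ord_v (dg/dx)`. -/
theorem ord_sub_eq (v : Place K F) {c : K} (hc : 0 < v.ord (x - algebraMap K F c))
    {g : F} {d : K} (hg : 0 < v.ord (g - algebraMap K F d)) :
    dd K x g ≠ 0 ∧
      v.ord (g - algebraMap K F d) = v.ord (x - algebraMap K F c) + v.ord (dd K x g) := by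
  obtain ⟨h1, hres⟩ := S24.A564.local_facts x hx v
  have := h1
  obtain ⟨π, hπ, -⟩ := S24.A564.LD.exists_dCoord v
  obtain ⟨γx, hγx, hγx0, hγxo⟩ := S24.A564.LD.exists_D_eq_smul_D v hres hπ (ne_of_gt hc)
  obtain ⟨γ, hγ, hγ0, hγo⟩ := S24.A564.LD.exists_D_eq_smul_D v hres hπ (ne_of_gt hg)
  rw [map_sub, Derivation.map_algebraMap, sub_zero] at hγx hγ
  have hDx : D K F x ≠ 0 := S24.A564.KR.D_ne_zero x hx
  have hDπ : D K F π ≠ 0 := by
    intro h0
    apply hDx
    rw [hγx, h0, smul_zero]
  have h2 : (dd K x g * γx) • D K F π = γ • D K F π := by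
    rw [← hγ, mul_smul, ← hγx]
    exact (dd_spec (K := K) x g).symm
  have h3 : dd K x g * γx = γ := smul_left_injective F hDπ h2
  have hdd : dd K x g ≠ 0 := by
    intro h0
    rw [h0, zero_mul] at h3
    exact hγ0 h3.symm
  refine ⟨hdd, ?_⟩
  have h4 : v.ord γ = v.ord (dd K x g) + v.ord γx := by
    rw [← h3, v.ord_mul hdd hγx0]
  omega

include hx in
/-- If a `δ`-stable subalgebra `R` lies in `O_v`, every nonzero element of `R` has order divisible
by `e = ord_v (x - c)`. -/
theorem dvd_ord_of_stable (v : Place K F) {c : K} (hc : 0 < v.ord (x - algebraMap K F c))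
    (R : Subalgebra K F) (hRv : ∀ g ∈ R, g ≠ 0 → 0 ≤ v.ord g)
    (hR : ∀ g ∈ R, dd K x g ∈ R) :
    ∀ g ∈ R, g ≠ 0 → v.ord (x - algebraMap K F c) ∣ v.ord g := by
  have key : ∀ n : ℕ, ∀ g ∈ R, g ≠ 0 → v.ord g = n → v.ord (x - algebraMap K F c) ∣ v.ord g := by
    intro n
    induction n using Nat.strong_induction_on with
    | _ n ih =>
      intro g hgR hg0 hn
      rcases Nat.eq_zero_or_pos n with h0 | hpos
      · rw [hn, h0]; exact dvd_zero _
      · have hg : 0 < v.ord (g - algebraMap K F 0) := by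
          rw [map_zero, sub_zero, hn]; exact_mod_cast hpos
        obtain ⟨hdd, hord⟩ := ord_sub_eq x hx v hc hg
        rw [map_zero, sub_zero] at hord
        have hddR := hR g hgR
        have hnn := hRv _ hddR hdd
        have hlt : (v.ord (dd K x g)).toNat < n := by
          have : (v.ord (dd K x g)).toNat = v.ord (dd K x g) := Int.toNat_of_nonneg hnn
          omega
        have := ih _ hlt _ hddR hdd (Int.toNat_of_nonneg hnn).symm
        rw [hord]
        exact dvd_add dvd_rfl this
  intro g hgR hg0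
  exact key (v.ord g).toNat g hgR hg0 (Int.toNat_of_nonneg (hRv g hgR hg0)).symm

end local_

section global_

variable [IsAlgClosed K] [CharZero K] [IsCurveOver K F] [Algebra.EssFiniteType K F]

/-- Finiteness of ramification: outside a finite set of places, `x` is regular and `x - x(v)` is a
uniformizer. -/
theorem exists_finite_unramified (x : F) (hx : Transcendental K x) [FiniteDimensional K⟮x⟯ F] :
    ∃ T : Finset (Place K F), ∀ v ∉ T, 0 ≤ v.ord x ∧
      ∀ c : K, 0 < v.ord (x - algebraMap K F c) → v.ord (x - algebraMap K F c) = 1 := by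
  classical
  obtain ⟨y, hy⟩ := Field.exists_primitive_element K⟮x⟯ F
  have hall : ∀ h : F, ∃ r ∈ Algebra.adjoin K {x, y}, ∃ s ∈ Algebra.adjoin K {x, y},
      h = r / s := by
    intro h
    have h1 : h ∈ (K⟮x⟯⟮y⟯).restrictScalars K := by
      rw [hy]; trivial
    rw [IntermediateField.adjoin_adjoin_left] at h1
    have h2 : ({x} ∪ {y} : Set F) = {x, y} := by
      ext z; simp [or_comm]
    rw [h2] at h1
    exact IntermediateField.mem_adjoin_iff_div.mp h1
  obtain ⟨r, hr, s, hs, hs0, hrs⟩ : ∃ r ∈ Algebra.adjoin K {x, y},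
      ∃ s ∈ Algebra.adjoin K {x, y}, s ≠ 0 ∧ dd K x y = r / s := by
    obtain ⟨r, hr, s, hs, hrs⟩ := hall (dd K x y)
    by_cases hs0 : s = 0
    · refine ⟨0, zero_mem _, 1, one_mem _, one_ne_zero, ?_⟩
      rw [hrs, hs0, div_zero, zero_div]
    · exact ⟨r, hr, s, hs, hs0, hrs⟩
  let R : Subalgebra K F := Algebra.adjoin K {x, y, s⁻¹}
  have hBR : Algebra.adjoin K {x, y} ≤ R :=
    Algebra.adjoin_mono (by intro z hz; simp only [Set.mem_insert_iff, Set.mem_singleton_iff] at hz ⊢; tauto)
  have hsR : s⁻¹ ∈ R := Algebra.subset_adjoin (by simp)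
  have hddB : ∀ g ∈ Algebra.adjoin K {x, y}, dd K x g ∈ R := by
    apply dd_mem_adjoin x hx hBR
    intro g hg
    rcases hg with rfl | rfl
    · rw [dd_self g hx]; exact one_mem _
    · rw [hrs, div_eq_mul_inv]; exact mul_mem (hBR hr) hsR
  have hddR : ∀ g ∈ R, dd K x g ∈ R := by
    apply dd_mem_adjoin x hx le_rfl
    intro g hg
    rcases hg with rfl | rfl | rfl
    · rw [dd_self g hx]; exact one_mem _
    · exact hddB _ (Algebra.subset_adjoin (by simp))
    · rw [dd_inv x hx]
      exact mul_mem (neg_mem (pow_mem hsR 2)) (hddB s hs)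
  refine ⟨(divF x : Divisor K F).support ∪ (divF y : Divisor K F).support ∪
    (divF s : Divisor K F).support, ?_⟩
  intro v hv
  simp only [Finset.mem_union, Finsupp.mem_support_iff, divF_apply, not_or, not_not] at hv
  obtain ⟨⟨hvx, hvy⟩, hvs⟩ := hv
  refine ⟨hvx.ge, fun c hc => ?_⟩
  have hRv : ∀ g ∈ R, g ≠ 0 → 0 ≤ v.ord g := by
    have hle : R ≤ S24.A564.SO.Place_subalgebra v := by
      apply Algebra.adjoin_le
      intro g hg
      rw [SetLike.mem_coe, S24.A564.SO.Place_mem_subalgebra]
      rcases hg with rfl | rfl | rfl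
      · exact S24.A564.SO.Place_mem_of_ord_nonneg v hvx.ge
      · exact S24.A564.SO.Place_mem_of_ord_nonneg v hvy.ge
      · exact S24.A564.SO.Place_mem_of_ord_nonneg v (by rw [v.ord_inv, hvs]; simp)
    intro g hg _
    exact S24.A564.SO.Place_ord_nonneg_of_mem v
      ((S24.A564.SO.Place_mem_subalgebra v g).mp (hle hg))
  have hdvd := dvd_ord_of_stable x hx v hc R hRv hddR
  obtain ⟨π, hπ⟩ := exists_uniformizer v
  obtain ⟨a, ha, b, hb, hab⟩ := hall π
  have hπ0 : π ≠ 0 := by
    rintro rfl
    rw [v.ord_zero] at hπ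
    exact zero_ne_one hπ
  have ha0 : a ≠ 0 := by
    rintro rfl
    exact hπ0 (by rw [hab, zero_div])
  have hb0 : b ≠ 0 := by
    rintro rfl
    exact hπ0 (by rw [hab, div_zero])
  have h1 : v.ord π = v.ord a - v.ord b := by
    rw [hab, div_eq_mul_inv, v.ord_mul ha0 (inv_ne_zero hb0), v.ord_inv]; ring
  have h2 : v.ord (x - algebraMap K F c) ∣ 1 := by
    rw [← hπ, h1]
    exact dvd_sub (hdvd a (hBR ha) ha0) (hdvd b (hBR hb) hb0)
  exact Int.eq_one_of_dvd_one hc.le h2

/-- Every nonzero Kaehler differential has a divisor. -/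
theorem hasCanonicalDivisor_aux (K F : Type*) [Field K] [Field F] [Algebra K F] [IsAlgClosed K]
    [CharZero K] [IsCurveOver K F] [Algebra.EssFiniteType K F] :
    HasCanonicalDivisor (K := K) (F := F) := by
  classical
  obtain ⟨x, hx, hfin⟩ := isFF K F
  have := hfin
  obtain ⟨T, hT⟩ := exists_finite_unramified x hx
  refine ⟨fun ω hω => ?_⟩
  obtain ⟨f, hf⟩ := S24.A564.KR.exists_eq_smul_D (K := K) x ω
  have hf0 : f ≠ 0 := by
    rintro rfl
    exact hω (by rw [hf, zero_smul])
  have hDx : D K F x ≠ 0 := S24.A564.KR.D_ne_zero x hx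
  have hfinite : (Function.support fun v : Place K F => v.ordDifferential ω).Finite := by
    apply Set.Finite.subset (T ∪ (divF f : Divisor K F).support).finite_toSet
    intro v hv
    by_contra hnot
    simp only [Finset.coe_union, Set.mem_union, Finset.mem_coe, Finsupp.mem_support_iff,
      divF_apply, not_or, not_not] at hnot
    obtain ⟨hvT, hvf⟩ := hnot
    obtain ⟨hvx, h1⟩ := hT v hvT
    obtain ⟨c, hc⟩ := S24.A564.exists_const_ord_pos x hx v hvx
    obtain ⟨hfinK, hres⟩ := S24.A564.local_facts x hx v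
    have := hfinK
    apply hv
    show v.ordDifferential ω = 0
    rw [hf, S24.A564.LD.ordDifferential_smul_D_of_sub v hres c (ne_of_gt hc) hDx hf0, hvf,
      h1 c hc]
    norm_num
  exact ⟨Finsupp.ofSupportFinite _ hfinite, fun v => rfl⟩

end global_

end Fermat.Agent.S17.FND.K8457
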