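/-
S17 / FND leaf K1 — Kaehler differentials: local orders, finiteness of ramification,
`HasCanonicalDivisor` (new in Skel v2; PROVED, helper8457).
-/
import Fermat.Agent.S17.FND.KRam8457

set_option autoImplicit false

noncomputable section

namespace Fermat.Agent.S17.FND

open AlgebraicCurve KaehlerDifferential IntermediateField

variable {K F : Type*} [Field K] [Field F] [Algebra K F]
variable [IsAlgClosed K] [CharZero K] [IsCurveOver K F] [Algebra.EssFiniteType K F]

/-! ## K1. Kaehler differentials: local orders and existence of divisors -/

/-- `D t ≠ 0` for `t` transcendental over `K`. -/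
theorem D_ne_zero_of_transcendental {t : F} (ht : Transcendental K t) : D K F t ≠ 0 := by
  have := finite_of_transcendental ht
  exact S24.A564.KR.D_ne_zero t ht

/-- Every Kaehler differential is a multiple of `D t`, `t` transcendental. -/
theorem exists_eq_smul_D_of_transcendental {t : F} (ht : Transcendental K t) (ω : Ω[F⁄K]) :
    ∃ f : F, ω = f • D K F t := by
  have := finite_of_transcendental ht
  exact S24.A564.KR.exists_eq_smul_D (K := K) t ω

/-- Order of `f dt` at a zero or pole of `t`. -/
theorem ordDifferential_smul_D_of_ord_ne_zero (v : Place K F) {t : F} (ht : v.ord t ≠ 0) {f : F} (hf : f ≠ 0) :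
    v.ordDifferential (f • D K F t) = v.ord f + v.ord t - 1 := by
  have htr : Transcendental K t := S24.A564.KR.transcendental_of_ord_ne_zero v ht
  have := finite_of_transcendental htr
  obtain ⟨h1, hres⟩ := S24.A564.local_facts t htr v
  have := h1
  exact S24.A564.LD.ordDifferential_smul_D v hres ht (S24.A564.KR.D_ne_zero t htr) hf

/-- Order of `f dt` at a zero of `t - a`. -/
theorem ordDifferential_smul_D_of_sub_ne_zero (v : Place K F) {t : F} (a : K)
    (ht : v.ord (t - algebraMap K F a) ≠ 0) {f : F} (hf : f ≠ 0) :
    v.ordDifferential (f • D K F t) = v.ord f + v.ord (t - algebraMap K F a) - 1 := by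
  have h : D K F (t - algebraMap K F a) = D K F t := by
    rw [map_sub, Derivation.map_algebraMap, sub_zero]
  rw [← h]
  exact ordDifferential_smul_D_of_ord_ne_zero v ht hf

/-- Finiteness of ramification: outside a finite set of places, `x` is regular and `x - x(v)` is
a uniformizer. -/
theorem exists_finite_unramified {x : F} (hx : Transcendental K x) :
    ∃ T : Finset (Place K F), ∀ v ∉ T, 0 ≤ v.ord x ∧
      ∀ c : K, 0 < v.ord (x - algebraMap K F c) → v.ord (x - algebraMap K F c) = 1 := by
  have := finite_of_transcendental hx
  exact K8457.exists_finite_unramified x hx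

/-- Every nonzero Kaehler differential has a divisor. -/
theorem hasCanonicalDivisor (K F : Type*) [Field K] [Field F] [Algebra K F] [IsAlgClosed K]
    [CharZero K] [IsCurveOver K F] [Algebra.EssFiniteType K F] :
    HasCanonicalDivisor (K := K) (F := F) :=
  K8457.hasCanonicalDivisor_aux K F

end Fermat.Agent.S17.FND
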