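/-
S17 / FND — function-field foundations: FROZEN STATEMENTS (sub-architect helper8457), v2 = INTEG.
ALL 59 statements of v0 are PROVED (types machine-checked identical to v0, axioms = the three
standard ones, scan ok).  This file only imports the leaves; consumers keep
`import Fermat.Agent.S17.FND.Skel` (or import single leaves: smaller closure).

Standing hypotheses: `K` algebraically closed of characteristic `0`, `F/K` a function field of one
variable in the Prelude sense (`IsCurveOver K F`, `Algebra.EssFiniteType K F`).

LEAVES (`Fermat/Agent/S17/FND/<Leaf>.lean`, all declarations in `namespace Fermat.Agent.S17.FND`):
  Defs  frozen definitions: divF, ell, pt, IsCanonical, evalAt, evalDiv, leadAt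
  A   structure       (helper68)    isFF, finite_of_transcendental, residue_bijective,
                                    mem_valuationSubring_iff, ord_add_ge, ord_algebraMap,
                                    exists_uniformizer, divF_mul/inv/pow/algebraMap,
                                    divF_eq_zero_iff, exists_eq_algebraMap_of_ord_nonneg,
                                    infinite_place, exists_ord_eq, exists_approx, degree_pt,
                                    degree_nonneg_of_nonneg, eq_zero_of_nonneg_of_degree
  B   Riemann–Roch    (helper68)    mem_RR_iff, finite_RR, ell_zero, ell_eq_zero_of_degree_neg,
                                    ell_mono, ell_add_pt_le, ell_add_divF, mul_mem_RR,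
                                    exists_canonical, IsCanonical.degree/.ell, ell_ge,
                                    ell_eq_of_degree_gt, ell_sub_pt, finite_basePoints,
                                    eq_of_ell_eq_one, exists_effective
  B2  RR corollaries  (helper8457)  degree_sub_pt, ell_sub_pt_sub_pt (very ample),
                                    ell_add_genus_eq, ell_le_ell_sub_pt_add_one,
                                    exists_ord_eq_neg (one-point pole orders n ≥ 2g)
  C   evaluation      (helper1317)  evalAt_algebraMap/add/mul/eq_zero_iff/eq_iff/inv/smul,
                                    leadAt_ne_zero/mul
  D   reciprocity     (helper9686)  evalDiv_ne_zero/add/neg/mul/algebraMap, weil_reciprocity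
  E   finite covers   (helper5486)  isCurveOver_of_finite, essFiniteType_of_finite,
                                    fiber_nonempty, sumRamificationInertia, inertiaDeg_eq_one,
                                    pushforwardNormFormula, evalAt_norm, evalAt_algebraMap_cover
  K1  Kaehler local   (helper8457)  hasCanonicalDivisor, exists_finite_unramified,
                                    ordDifferential_smul_D_of_ord_ne_zero,
                                    ordDifferential_smul_D_of_sub_ne_zero,
                                    exists_eq_smul_D_of_transcendental, D_ne_zero_of_transcendental

NOT imported here (still a stub, A-route only): `FND/K.lean` — `degree_kaehler`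
(deg div(ω) = 2 genusFF − 2; helper6265, package BRK).

Libraries behind the leaves: `FND/RR68/*` (Riemann–Roch with Weil differentials, helper68),
`FND/E5486/*` (local Dedekind model and norm residues, helper5486), `FND/KRam8457.lean`;
everything needs only Mathlib, Prelude and the landed `Fermat/Agent/S24/A564/*`.
-/
import Fermat.Agent.S17.FND.A
import Fermat.Agent.S17.FND.B
import Fermat.Agent.S17.FND.B2
import Fermat.Agent.S17.FND.C
import Fermat.Agent.S17.FND.D
import Fermat.Agent.S17.FND.E
import Fermat.Agent.S17.FND.K1
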